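import Fermat.Agent.S56.W1.Kill.Dense
import Fermat.Agent.F4.Loc.Krasner
import Fermat.Agent.MU.F4.Loc.Unram2
import Fermat.Agent.MU.F4.Loc.Base
import Fermat.Agent.F4.Loc.KummerFin
import Fermat.Agent.MU.S56.W3.SO.KummerFp
import Fermat.Agent.MU.F4.Loc.FT
import Fermat.Agent.MU.S56.W3.TW.Gen
import Fermat.Agent.MU.S56.W3.Tame
import Fermat.Agent.MU.S56.W3.SO.CycLoc
import Fermat.Agent.Lib.KFin.Inertia
import Fermat.Agent.MU.F4.Loc.Datum.Levels
import Fermat.Agent.MU.S56.W3.SO.Kummer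

section MergeWrap_S56_W4_CountA_Dense -- from S56/W4/CountA/Dense.lean

/-!
# S56 / W4 / CountA / Dense : `ι(ℚ̄)` is dense in `PadicAlgCl q`, congruences pass to the closure

`Ω = PadicAlgCl q`, `ι = padicEmbedding q`.
* `w4a_dense` : every element of `Ω` is a limit of elements of `ι(ℚ̄)`;
* `w4a_congr_of_dense` : an automorphism `σ` of `Ω/ℚ_q` and a natural number `n ≥ 1` with
  `‖σ (ι y) - (ι y) ^ n‖ < 1` for all `y` in the place `padicPlace q` satisfy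
  `‖σ x - x ^ n‖ < 1` for all `x` with `‖x‖ ≤ 1`.
-/

set_option autoImplicit false

open Polynomial

namespace Fermat.Agent.S56.W4A

variable (q : ℕ) [Fact q.Prime]

local notation "Ω" => PadicAlgCl q
local notation "Qb" => AlgebraicClosure ℚ

/-- `ι(ℚ̄)` is dense in `Ω`. -/
theorem w4a_dense (x : Ω) {ε : ℝ} (hε : 0 < ε) :
    ∃ y : Qb, ‖x - padicEmbedding q y‖ < ε := by
  obtain ⟨y₀, hy₀⟩ := Fermat.Agent.F4.Loc.exists_algebraic_generator q x
  have hint : IsAlgebraic ℚ_[q] (padicEmbedding q y₀) := Algebra.IsAlgebraic.isAlgebraic _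
  have hx : x ∈ Algebra.adjoin ℚ_[q] {padicEmbedding q y₀} := by
    rw [← IntermediateField.adjoin_simple_toSubalgebra_of_isAlgebraic hint]
    exact hy₀
  rw [Algebra.adjoin_singleton_eq_range_aeval] at hx
  obtain ⟨g, rfl⟩ := hx
  obtain ⟨h, hh, -⟩ := Fermat.Agent.S56.kill_exists_approx q g (padicEmbedding q y₀)
    (padicEmbedding q y₀) hε
  refine ⟨aeval y₀ h, ?_⟩
  have e : padicEmbedding q (aeval y₀ h) = aeval (padicEmbedding q y₀) h :=
    (aeval_algHom_apply (padicEmbedding q) y₀ h).symm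
  rw [e]
  exact hh

/-- The norm of `Ω` is ultrametric. -/
theorem w4a_norm_add_le (x y : Ω) : ‖x + y‖ ≤ max ‖x‖ ‖y‖ :=
  IsUltrametricDist.norm_add_le_max x y

theorem w4a_norm_sub_le (x y : Ω) : ‖x - y‖ ≤ max ‖x‖ ‖y‖ := by
  rw [sub_eq_add_neg]
  exact (w4a_norm_add_le q x (-y)).trans (by rw [norm_neg])

/-- automorphisms are isometries -/
theorem w4a_norm_map (σ : Ω ≃ₐ[ℚ_[q]] Ω) (x : Ω) : ‖σ x‖ = ‖x‖ := by
  have h := nnnorm_padicAlgCl_algEquiv q σ x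
  exact congrArg NNReal.toReal h

/-- `‖x ^ n - y ^ n‖ ≤ ‖x - y‖` for integral `x`, `y`. -/
theorem w4a_norm_pow_sub_pow_le {x y : Ω} (hx : ‖x‖ ≤ 1) (hy : ‖y‖ ≤ 1) (n : ℕ) :
    ‖x ^ n - y ^ n‖ ≤ ‖x - y‖ := by
  induction n with
  | zero => simp
  | succ n ih =>
    have e : x ^ (n + 1) - y ^ (n + 1) = x ^ n * (x - y) + (x ^ n - y ^ n) * y := by ring
    rw [e]
    refine (w4a_norm_add_le q _ _).trans (max_le ?_ ?_)
    · rw [norm_mul, norm_pow]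
      exact mul_le_of_le_one_left (norm_nonneg _) (pow_le_one₀ (norm_nonneg _) hx)
    · rw [norm_mul]
      exact (mul_le_of_le_one_right (norm_nonneg _) hy).trans ih

/-- Congruences modulo the maximal ideal pass from `ι(ℚ̄)` to `Ω`. -/
theorem w4a_congr_of_dense (σ : Ω ≃ₐ[ℚ_[q]] Ω) (n : ℕ)
    (h : ∀ y : Qb, y ∈ padicPlace q →
      ‖σ (padicEmbedding q y) - (padicEmbedding q y) ^ n‖ < 1)
    (x : Ω) (hx : ‖x‖ ≤ 1) : ‖σ x - x ^ n‖ < 1 := by
  obtain ⟨y, hy⟩ := w4a_dense q x (ε := 1) one_pos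
  have hy1 : ‖padicEmbedding q y‖ ≤ 1 := by
    have e : padicEmbedding q y = x - (x - padicEmbedding q y) := by ring
    rw [e]
    exact (w4a_norm_sub_le q _ _).trans (max_le hx hy.le)
  have hyP : y ∈ padicPlace q := by
    rw [mem_padicPlace_iff, ← NNReal.coe_le_coe, coe_nnnorm, NNReal.coe_one]
    exact hy1
  have e : σ x - x ^ n = σ (x - padicEmbedding q y) +
      ((σ (padicEmbedding q y) - (padicEmbedding q y) ^ n) -
        (x ^ n - (padicEmbedding q y) ^ n)) := by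
    rw [map_sub]
    ring
  rw [e]
  refine lt_of_le_of_lt (w4a_norm_add_le q _ _) (max_lt ?_ ?_)
  · rw [w4a_norm_map]
    exact hy
  · refine lt_of_le_of_lt (w4a_norm_sub_le q _ _) (max_lt (h y hyP) ?_)
    exact lt_of_le_of_lt (w4a_norm_pow_sub_pow_le q hx hy1 n) hy

end Fermat.Agent.S56.W4A
end MergeWrap_S56_W4_CountA_Dense

section MergeWrap_S56_W4_CountA_Unr -- from S56/W4/CountA/Unr.lean

/-!
# S56 / W4 / CountA / Unr : the unramified fields `ℚ_q(ζ)`, `ζ` a root of unity of order prime to `q`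

`Ω = PadicAlgCl q`, `ζ ∈ Ω` a primitive `m`-th root of unity, `q ∤ m`.  An element `x` is *fixed*
if `σ x = x` for all `σ ∈ Gal(Ω/ℚ_q)` with `σ ζ = ζ` (`W4Fixed q ζ x`), i.e. `x ∈ ℚ_q(ζ)`.

* `w4a_root_eq_of_close` : distinct `m`-th roots of unity are incongruent;
* `W4Fixed.norm_eq` : the norm of a fixed `x ≠ 0` is a power of `q` (`F4.Loc.unram_val`);
* `W4Fixed.exists_pow_eq` : a fixed `u` with `‖u - 1‖ ≤ q⁻²` is the `q`-th power of a fixed
  element (`q` odd).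
-/

set_option autoImplicit false

open Polynomial IntermediateField
open scoped NNReal

namespace Fermat.Agent.S56.W4A

open Fermat.Agent.F4.Loc

variable (q : ℕ) [Fact q.Prime]

local notation "Ω" => PadicAlgCl q

/-- `x` is fixed by the stabiliser of `ζ`. -/
def W4Fixed (ζ x : Ω) : Prop := ∀ σ : Ω ≃ₐ[ℚ_[q]] Ω, σ ζ = ζ → σ x = x

variable {q}

theorem W4Fixed.mem_adjoin {ζ x : Ω} (h : W4Fixed q ζ x) : x ∈ ℚ_[q]⟮ζ⟯ := by
  rw [← InfiniteGalois.fixedField_fixingSubgroup (ℚ_[q]⟮ζ⟯), IntermediateField.mem_fixedField_iff]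
  intro σ hσ
  apply h
  exact (IntermediateField.mem_fixingSubgroup_iff _ σ).1 hσ ζ (mem_adjoin_simple_self ℚ_[q] ζ)

theorem w4Fixed_of_mem_adjoin {ζ x : Ω} (h : x ∈ ℚ_[q]⟮ζ⟯) : W4Fixed q ζ x := by
  intro σ hσ
  have hst : Subgroup.zpowers σ ≤ MulAction.stabilizer (Ω ≃ₐ[ℚ_[q]] Ω) ζ := by
    rw [Subgroup.zpowers_le]
    exact hσ
  have hle : ℚ_[q]⟮ζ⟯ ≤ IntermediateField.fixedField (Subgroup.zpowers σ) := by
    rw [adjoin_simple_le_iff, IntermediateField.mem_fixedField_iff]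
    intro g hg
    exact hst hg
  exact (IntermediateField.mem_fixedField_iff _ x).1 (hle h) σ (Subgroup.mem_zpowers σ)

theorem w4Fixed_algebraMap (ζ : Ω) (y : ℚ_[q]) : W4Fixed q ζ (algebraMap ℚ_[q] Ω y) :=
  fun σ _ => σ.commutes y

theorem w4Fixed_natCast (ζ : Ω) (n : ℕ) : W4Fixed q ζ (n : Ω) :=
  fun σ _ => map_natCast σ n

theorem w4Fixed_one (ζ : Ω) : W4Fixed q ζ 1 := fun σ _ => map_one σ

theorem w4Fixed_self (ζ : Ω) : W4Fixed q ζ ζ := fun _ h => h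

theorem W4Fixed.mul {ζ x y : Ω} (hx : W4Fixed q ζ x) (hy : W4Fixed q ζ y) :
    W4Fixed q ζ (x * y) := fun σ h => by rw [map_mul, hx σ h, hy σ h]

theorem W4Fixed.add {ζ x y : Ω} (hx : W4Fixed q ζ x) (hy : W4Fixed q ζ y) :
    W4Fixed q ζ (x + y) := fun σ h => by rw [map_add, hx σ h, hy σ h]

theorem W4Fixed.sub {ζ x y : Ω} (hx : W4Fixed q ζ x) (hy : W4Fixed q ζ y) :
    W4Fixed q ζ (x - y) := fun σ h => by rw [map_sub, hx σ h, hy σ h]

theorem W4Fixed.inv {ζ x : Ω} (hx : W4Fixed q ζ x) : W4Fixed q ζ x⁻¹ :=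
  fun σ h => by rw [map_inv₀, hx σ h]

theorem W4Fixed.div {ζ x y : Ω} (hx : W4Fixed q ζ x) (hy : W4Fixed q ζ y) :
    W4Fixed q ζ (x / y) := fun σ h => by rw [map_div₀, hx σ h, hy σ h]

theorem W4Fixed.pow {ζ x : Ω} (hx : W4Fixed q ζ x) (n : ℕ) : W4Fixed q ζ (x ^ n) :=
  fun σ h => by rw [map_pow, hx σ h]

theorem W4Fixed.zpow {ζ x : Ω} (hx : W4Fixed q ζ x) (n : ℤ) : W4Fixed q ζ (x ^ n) :=
  fun σ h => by rw [map_zpow₀, hx σ h]

/-! ### norms -/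

variable (q)

theorem w4a_norm_natCast_le (n : ℕ) : ‖(n : Ω)‖ ≤ 1 := by
  induction n with
  | zero => simp
  | succ n ih =>
    rw [Nat.cast_succ]
    exact (w4a_norm_add_le q _ _).trans (max_le ih (le_of_eq norm_one))

theorem w4a_norm_q : ‖(q : Ω)‖ = (q : ℝ)⁻¹ := Fermat.Agent.S56.kill_norm_q q

theorem w4a_q_pos : (0 : ℝ) < q := Nat.cast_pos.2 (Fact.out : q.Prime).pos

theorem w4a_one_lt_q : (1 : ℝ) < q := Nat.one_lt_cast.2 (Fact.out : q.Prime).one_lt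

theorem w4a_q_ne_zero : (q : Ω) ≠ 0 := Nat.cast_ne_zero.2 (Fact.out : q.Prime).ne_zero

theorem w4a_norm_natCast_of_dvd {n : ℕ} (h : q ∣ n) : ‖(n : Ω)‖ ≤ (q : ℝ)⁻¹ := by
  obtain ⟨c, rfl⟩ := h
  rw [Nat.cast_mul, norm_mul, w4a_norm_q]
  exact mul_le_of_le_one_right (inv_nonneg.2 (w4a_q_pos q).le) (w4a_norm_natCast_le q c)

/-- the norm of an integer `n` prime to `q` is `1` -/
theorem w4a_norm_natCast_of_not_dvd {n : ℕ} (h : ¬ q ∣ n) : ‖(n : Ω)‖ = 1 := by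
  have hq : q.Prime := Fact.out
  have e : (n : Ω) = algebraMap ℚ_[q] Ω (n : ℚ_[q]) := (map_natCast _ n).symm
  rw [e, PadicAlgCl.norm_extends]
  have h1 : ‖((n : ℤ) : ℚ_[q])‖ = 1 := by
    rw [Padic.norm_intCast_eq_one_iff]
    rw [Int.isCoprime_iff_gcd_eq_one, Int.gcd_natCast_natCast]
    exact ((Nat.Prime.coprime_iff_not_dvd hq).2 h).symm
  exact_mod_cast h1

variable {q}

/-- norm `< 1` for a fixed element forces norm `≤ 1/q` -/
theorem W4Fixed.norm_eq {m : ℕ} (hm : Nat.Coprime m q) {ζ : Ω} (hζ : IsPrimitiveRoot ζ m)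
    {x : Ω} (hx : W4Fixed q ζ x) (hx0 : x ≠ 0) : ∃ n : ℤ, ‖x‖ = (q : ℝ) ^ n := by
  have hm' : Nat.Coprime m (resCard (resVal ℚ_[q] (padicVal q))) := by
    rw [padicVal_resCard_base]
    exact hm
  have hxE : x ∈ ℚ_[q]⟮ζ⟯ := hx.mem_adjoin
  have hx0' : (⟨x, hxE⟩ : ℚ_[q]⟮ζ⟯) ≠ 0 := fun h => hx0 (congrArg Subtype.val h)
  obtain ⟨y, hy⟩ := unram_val (padicVal q) (padicVal_isInvVal_base q) (padicVal_isLocalVal_base q)
    hm' hζ ⟨x, hxE⟩ hx0'
  rw [padicVal_apply, padicVal_apply] at hy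
  have hy' : ‖x‖ = ‖y‖ := by
    have := congrArg NNReal.toReal hy
    rw [coe_nnnorm, coe_nnnorm, PadicAlgCl.norm_extends] at this
    exact this
  have hy0 : y ≠ 0 := by
    rintro rfl
    rw [norm_zero, norm_eq_zero] at hy'
    exact hx0 hy'
  refine ⟨-y.valuation, ?_⟩
  rw [hy', Padic.norm_eq_zpow_neg_valuation hy0]

theorem W4Fixed.norm_le_of_lt {m : ℕ} (hm : Nat.Coprime m q) {ζ : Ω} (hζ : IsPrimitiveRoot ζ m)
    {x : Ω} (hx : W4Fixed q ζ x) (h : ‖x‖ < 1) : ‖x‖ ≤ (q : ℝ)⁻¹ := by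
  by_cases hx0 : x = 0
  · rw [hx0, norm_zero]
    exact inv_nonneg.2 (w4a_q_pos q).le
  obtain ⟨n, hn⟩ := hx.norm_eq hm hζ hx0
  rw [hn] at h ⊢
  have hn0 : n < 0 := by
    by_contra hcon
    have : (1 : ℝ) ≤ (q : ℝ) ^ n := one_le_zpow₀ (w4a_one_lt_q q).le (not_lt.1 hcon)
    exact absurd h (not_lt.2 this)
  have : (q : ℝ) ^ n ≤ (q : ℝ) ^ (-1 : ℤ) :=
    zpow_le_zpow_right₀ (w4a_one_lt_q q).le (by omega)
  rwa [zpow_neg_one] at this

/-- distinct `m`-th roots of unity are incongruent -/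
theorem w4a_root_eq_of_close {m : ℕ} (hm : Nat.Coprime m q) {ζ : Ω} (hζ : IsPrimitiveRoot ζ m)
    {a b : Ω} (ha : a ^ m = 1) (hb : b ^ m = 1) (h : ‖a - b‖ < 1) : a = b := by
  have hq : q.Prime := Fact.out
  have hm0 : m ≠ 0 := by
    rintro rfl
    rw [Nat.coprime_zero_left] at hm
    exact hq.ne_one hm
  have : NeZero m := ⟨hm0⟩
  obtain ⟨i, -, rfl⟩ := hζ.eq_pow_of_pow_eq_one ha
  obtain ⟨j, -, rfl⟩ := hζ.eq_pow_of_pow_eq_one hb
  by_contra hne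
  have hm' : Nat.Coprime m (resCard (resVal ℚ_[q] (padicVal q))) := by
    rw [padicVal_resCard_base]
    exact hm
  have h1 := val_sub_one_rootOfUnity (E := ℚ_[q]) (padicVal q) (padicVal_isLocalVal_base q) hm' hζ
    i j hne
  rw [padicVal_apply] at h1
  have h2 : ‖ζ ^ i - ζ ^ j‖ = 1 := by
    have := congrArg NNReal.toReal h1
    simpa using this
  rw [h2] at h
  exact lt_irrefl _ h

/-! ### `q`-th powers -/

theorem w4a_norm_eq_one_of_close {u : Ω} (h : ‖u - 1‖ < 1) : ‖u‖ = 1 := by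
  apply le_antisymm
  · have e : u = (u - 1) + 1 := by ring
    rw [e]
    exact (w4a_norm_add_le q _ _).trans (max_le h.le (le_of_eq norm_one))
  · by_contra hcon
    have hlt : ‖u‖ < 1 := not_le.1 hcon
    have e : (1 : Ω) = u - (u - 1) := by ring
    have h1 : ‖(1 : Ω)‖ < 1 := by
      rw [e]
      exact lt_of_le_of_lt (w4a_norm_sub_le q _ _) (max_lt hlt h)
    rw [norm_one] at h1
    exact lt_irrefl _ h1

/-- `‖(1 + y) ^ q - (1 + q y)‖ ≤ q⁻³` for `‖y‖ ≤ q⁻¹`, `q` odd. -/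
theorem w4a_binom (hq2 : q ≠ 2) {y : Ω} (hy : ‖y‖ ≤ (q : ℝ)⁻¹) :
    ‖(1 + y) ^ q - (1 + q * y)‖ ≤ ((q : ℝ)⁻¹) ^ 3 := by
  have hq : q.Prime := Fact.out
  have hq3 : 3 ≤ q := by
    have := hq.two_le
    omega
  have hqi0 : (0 : ℝ) ≤ (q : ℝ)⁻¹ := inv_nonneg.2 (w4a_q_pos q).le
  have hqi1 : (q : ℝ)⁻¹ ≤ 1 := inv_le_one_of_one_le₀ (w4a_one_lt_q q).le
  have hy1 : ‖y‖ ≤ 1 := hy.trans hqi1
  have key : (1 + y) ^ q - (1 + q * y)
      = ∑ i ∈ ((Finset.range (q + 1)).erase 0).erase 1, y ^ i * (q.choose i : Ω) := by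
    rw [add_comm 1 y, add_pow]
    have h0 : (0 : ℕ) ∈ Finset.range (q + 1) := by simp
    have h1 : (1 : ℕ) ∈ (Finset.range (q + 1)).erase 0 := by
      rw [Finset.mem_erase, Finset.mem_range]
      exact ⟨one_ne_zero, by omega⟩
    rw [← Finset.add_sum_erase _ _ h0, ← Finset.add_sum_erase _ _ h1]
    simp only [one_pow, mul_one, pow_zero, Nat.choose_zero_right, Nat.cast_one, pow_one,
      Nat.choose_one_right]
    ring
  rw [key]
  refine IsUltrametricDist.norm_sum_le_of_forall_le_of_nonneg (pow_nonneg hqi0 3) ?_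
  intro i hi
  rw [Finset.mem_erase, Finset.mem_erase, Finset.mem_range] at hi
  obtain ⟨hi1, hi0, hiq⟩ := hi
  have hi2 : 2 ≤ i := by omega
  rw [norm_mul, norm_pow]
  have hyi : ‖y‖ ^ i ≤ ((q : ℝ)⁻¹) ^ 2 :=
    (pow_le_pow_of_le_one (norm_nonneg _) hy1 hi2).trans
      (pow_le_pow_left₀ (norm_nonneg _) hy 2)
  by_cases hiq' : i < q
  · have hdvd : q ∣ q.choose i := hq.dvd_choose_self hi0 hiq'
    have hc := w4a_norm_natCast_of_dvd q hdvd
    calc ‖y‖ ^ i * ‖(q.choose i : Ω)‖ ≤ ((q : ℝ)⁻¹) ^ 2 * (q : ℝ)⁻¹ :=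
          mul_le_mul hyi hc (norm_nonneg _) (pow_nonneg hqi0 2)
      _ = ((q : ℝ)⁻¹) ^ 3 := by ring
  · have hiq2 : i = q := by omega
    have hc := w4a_norm_natCast_le q (q.choose i)
    have hyi3 : ‖y‖ ^ i ≤ ((q : ℝ)⁻¹) ^ 3 := by
      rw [hiq2]
      exact (pow_le_pow_of_le_one (norm_nonneg _) hy1 hq3).trans
        (pow_le_pow_left₀ (norm_nonneg _) hy 3)
    calc ‖y‖ ^ i * ‖(q.choose i : Ω)‖ ≤ ((q : ℝ)⁻¹) ^ 3 * 1 :=
          mul_le_mul hyi3 hc (norm_nonneg _) (pow_nonneg hqi0 3)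
      _ = ((q : ℝ)⁻¹) ^ 3 := mul_one _

/-- A fixed element close to `1` is the `q`-th power of a fixed element. -/
theorem W4Fixed.exists_pow_eq (hq2 : q ≠ 2) {m : ℕ} (hm0 : 0 < m) {ζ : Ω}
    (hζ : IsPrimitiveRoot ζ m) {u : Ω} (hu : W4Fixed q ζ u) (h : ‖u - 1‖ ≤ ((q : ℝ)⁻¹) ^ 2) :
    ∃ w : Ω, W4Fixed q ζ w ∧ w ^ q = u := by
  have hq : q.Prime := Fact.out
  have hqi0 : (0 : ℝ) < (q : ℝ)⁻¹ := inv_pos.2 (w4a_q_pos q)
  have hqi1 : (q : ℝ)⁻¹ < 1 := inv_lt_one_of_one_lt₀ (w4a_one_lt_q q)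
  have hq0 : (q : Ω) ≠ 0 := w4a_q_ne_zero q
  have hu1 : ‖u - 1‖ < 1 := lt_of_le_of_lt h (pow_lt_one₀ hqi0.le hqi1 (by norm_num))
  have hnu : ‖u‖ = 1 := w4a_norm_eq_one_of_close hu1
  have hu0 : u ≠ 0 := fun h0 => by rw [h0, norm_zero] at hnu; exact zero_ne_one hnu
  set y : Ω := (u - 1) / q with hy
  have hyn : ‖y‖ ≤ (q : ℝ)⁻¹ := by
    rw [hy, norm_div, w4a_norm_q, div_le_iff₀ hqi0]
    calc ‖u - 1‖ ≤ ((q : ℝ)⁻¹) ^ 2 := h
      _ = (q : ℝ)⁻¹ * (q : ℝ)⁻¹ := by ring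
  have hyu : 1 + (q : Ω) * y = u := by
    rw [hy, mul_div_cancel₀ _ hq0]
    ring
  have hb := w4a_binom hq2 hyn
  rw [hyu] at hb
  have hyF : W4Fixed q ζ y := (hu.sub (w4Fixed_one ζ)).div (w4Fixed_natCast ζ q)
  have hvF : W4Fixed q ζ ((1 + y) ^ q) := ((w4Fixed_one ζ).add hyF).pow q
  set t : Ω := (1 + y) ^ q / u with ht
  have htF : W4Fixed q ζ t := hvF.div hu
  have htn : ‖t - 1‖ ≤ ((q : ℝ)⁻¹) ^ 3 := by
    have e : t - 1 = ((1 + y) ^ q - u) / u := by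
      rw [ht]
      field_simp
    rw [e, norm_div, hnu, div_one]
    exact hb
  -- the finite extension `E = ℚ_q(ζ)`
  have hint : IsIntegral ℚ_[q] ζ := hζ.isIntegral hm0 |>.tower_top
  have hfd : FiniteDimensional ℚ_[q] ℚ_[q]⟮ζ⟯ := adjoin.finiteDimensional hint
  have hE := padicVal_isLocalVal q ℚ_[q]⟮ζ⟯
  have htE : t ∈ ℚ_[q]⟮ζ⟯ := htF.mem_adjoin
  have hclose : resVal ℚ_[q]⟮ζ⟯ (padicVal q) ((⟨t, htE⟩ : ℚ_[q]⟮ζ⟯) - 1)
      < resVal ℚ_[q]⟮ζ⟯ (padicVal q) ((q : ℕ) : ℚ_[q]⟮ζ⟯) ^ 2 := by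
    rw [resVal_apply, resVal_apply, padicVal_apply, padicVal_apply, map_sub, map_one,
      map_natCast, ← NNReal.coe_lt_coe, NNReal.coe_pow, coe_nnnorm, coe_nnnorm, w4a_norm_q]
    show ‖t - 1‖ < _
    refine lt_of_le_of_lt htn ?_
    calc ((q : ℝ)⁻¹) ^ 3 = ((q : ℝ)⁻¹) ^ 2 * (q : ℝ)⁻¹ := by ring
      _ < ((q : ℝ)⁻¹) ^ 2 * 1 := by
          exact mul_lt_mul_of_pos_left hqi1 (pow_pos hqi0 2)
      _ = ((q : ℝ)⁻¹) ^ 2 := mul_one _
  obtain ⟨x, hx⟩ := exists_pow_eq_of_close (resVal ℚ_[q]⟮ζ⟯ (padicVal q)) hE q hq ⟨t, htE⟩ hclose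
  have hx' : (x : Ω) ^ q = t := by
    have := congrArg (Subtype.val) hx
    simpa using this
  have hxF : W4Fixed q ζ (x : Ω) := w4Fixed_of_mem_adjoin x.2
  have ht0 : t ≠ 0 := by
    intro h0
    have : ‖t - 1‖ = 1 := by rw [h0, zero_sub, norm_neg, norm_one]
    rw [this] at htn
    exact absurd htn (not_le.2 (pow_lt_one₀ hqi0.le hqi1 (by norm_num)))
  have hx0 : (x : Ω) ≠ 0 := by
    intro h0
    rw [h0, zero_pow hq.ne_zero] at hx'
    exact ht0 hx'.symm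
  refine ⟨(1 + y) / (x : Ω), ((w4Fixed_one ζ).add hyF).div hxF, ?_⟩
  rw [div_pow, hx', ht]
  have hv0 : (1 + y) ^ q ≠ 0 := by
    intro h0
    rw [ht, h0, zero_div] at ht0
    exact ht0 rfl
  field_simp

end Fermat.Agent.S56.W4A
end MergeWrap_S56_W4_CountA_Unr

section MergeWrap_S56_W4_CountA_Theta -- from S56/W4/CountA/Theta.lean

/-!
# S56 / W4 / CountA / Theta : the map `θ(u) = (u ^ m - 1) / q` on the units of `ℚ_q(ζ_m)`

`m = q ^ d - 1`, `ζ` a primitive `m`-th root of unity of `Ω = PadicAlgCl q`, `φ` a Frobenius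
(`‖φ x - x ^ q‖ < 1` for integral `x`).  For the fixed units `u` (`W4U`):
* `‖θ u‖ ≤ 1`;  `θ (u v) ≡ θ u + θ v`;  `θ (w ^ q) ≡ 0`;  `θ (φ u) ≡ (θ u) ^ q`  (mod `𝔪`);
* `θ u ≡ 0` implies `u = w ^ q`, `w` fixed.
-/

set_option autoImplicit false

open Polynomial IntermediateField
open scoped NNReal

namespace Fermat.Agent.S56.W4A

open Fermat.Agent.F4.Loc

variable (q : ℕ) [Fact q.Prime]

local notation "Ω" => PadicAlgCl q

/-- The data: the degree `d`, a primitive root of unity of order `q ^ d - 1` and a Frobenius. -/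
structure W4Data where
  d : ℕ
  hd : 0 < d
  ζ : Ω
  hζ : IsPrimitiveRoot ζ (q ^ d - 1)
  φ : Ω ≃ₐ[ℚ_[q]] Ω
  hφ : ∀ x : Ω, ‖x‖ ≤ 1 → ‖φ x - x ^ q‖ < 1

variable {q}

namespace W4Data

variable (D : W4Data q)

/-- the order of the root of unity -/
def m : ℕ := q ^ D.d - 1

theorem m_add_one : D.m + 1 = q ^ D.d := by
  have hq : q.Prime := Fact.out
  have : 0 < q ^ D.d := pow_pos hq.pos _
  unfold m
  omega

theorem m_pos : 0 < D.m := by
  have hq : q.Prime := Fact.out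
  have h1 : q ^ 1 ≤ q ^ D.d := Nat.pow_le_pow_right hq.pos D.hd
  have := hq.two_le
  have := D.m_add_one
  rw [pow_one] at h1
  omega

theorem m_coprime : Nat.Coprime D.m q := by
  have hq : q.Prime := Fact.out
  rw [Nat.coprime_comm, Nat.Prime.coprime_iff_not_dvd hq]
  intro h
  have h2 : q ∣ q ^ D.d := dvd_pow_self q D.hd.ne'
  rw [← D.m_add_one] at h2
  have h3 : q ∣ 1 := (Nat.dvd_add_right h).1 h2
  exact hq.one_lt.ne' (Nat.dvd_one.1 h3)

theorem hζ' : IsPrimitiveRoot D.ζ D.m := D.hζ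

theorem zeta_pow : D.ζ ^ D.m = 1 := D.hζ.pow_eq_one

theorem norm_zeta : ‖D.ζ‖ = 1 := by
  have h : ‖D.ζ‖ ^ D.m = 1 := by rw [← norm_pow, D.zeta_pow, norm_one]
  exact (pow_eq_one_iff_of_nonneg (norm_nonneg _) D.m_pos.ne').1 h

/-- every automorphism maps `ζ` to a power of `ζ` -/
theorem map_zeta (g : Ω ≃ₐ[ℚ_[q]] Ω) : ∃ i : ℕ, g D.ζ = D.ζ ^ i := by
  have : NeZero D.m := ⟨D.m_pos.ne'⟩
  have h : (g D.ζ) ^ D.m = 1 := by rw [← map_pow, D.zeta_pow, map_one]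
  obtain ⟨i, -, hi⟩ := D.hζ'.eq_pow_of_pow_eq_one h
  exact ⟨i, hi.symm⟩

/-- the stabiliser of `ζ` is normal -/
theorem conj_zeta (g σ : Ω ≃ₐ[ℚ_[q]] Ω) (hσ : σ D.ζ = D.ζ) : (g⁻¹ * σ * g) D.ζ = D.ζ := by
  obtain ⟨i, hi⟩ := D.map_zeta g
  rw [AlgEquiv.mul_apply, AlgEquiv.mul_apply, hi, map_pow, hσ, ← hi]
  exact g.symm_apply_apply _

theorem fixed_map {x : Ω} (hx : W4Fixed q D.ζ x) (g : Ω ≃ₐ[ℚ_[q]] Ω) : W4Fixed q D.ζ (g x) := by
  intro σ hσ
  have h := hx (g⁻¹ * σ * g) (D.conj_zeta g σ hσ)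
  rw [AlgEquiv.mul_apply, AlgEquiv.mul_apply] at h
  have h2 := congrArg g h
  rw [show g (g⁻¹ (σ (g x))) = σ (g x) from g.apply_symm_apply _] at h2
  exact h2

/-- `φ ζ = ζ ^ q` -/
theorem phi_zeta : D.φ D.ζ = D.ζ ^ q := by
  refine w4a_root_eq_of_close D.m_coprime D.hζ' ?_ ?_ (D.hφ D.ζ D.norm_zeta.le)
  · rw [← map_pow, D.zeta_pow, map_one]
  · rw [← pow_mul, mul_comm, pow_mul, D.zeta_pow, one_pow]

theorem phi_pow_zeta (n : ℕ) : (D.φ ^ n) D.ζ = D.ζ ^ (q ^ n) := by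
  induction n with
  | zero => simp
  | succ n ih =>
    rw [pow_succ, AlgEquiv.mul_apply, D.phi_zeta, map_pow, ih, ← pow_mul, ← pow_succ]

theorem phi_d_zeta : (D.φ ^ D.d) D.ζ = D.ζ := by
  rw [D.phi_pow_zeta, ← D.m_add_one, pow_succ, D.zeta_pow, one_mul]

/-- powers of the Frobenius -/
theorem phi_pow_congr (n : ℕ) {x : Ω} (hx : ‖x‖ ≤ 1) : ‖(D.φ ^ n) x - x ^ (q ^ n)‖ < 1 := by
  induction n with
  | zero => simp
  | succ n ih =>
    have e : (D.φ ^ (n + 1)) x - x ^ (q ^ (n + 1)) =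
        D.φ ((D.φ ^ n) x - x ^ (q ^ n)) + (D.φ (x ^ (q ^ n)) - (x ^ (q ^ n)) ^ q) := by
      rw [pow_succ' D.φ n, AlgEquiv.mul_apply, map_sub, pow_succ q n, pow_mul]
      ring
    rw [e]
    refine lt_of_le_of_lt (w4a_norm_add_le q _ _) (max_lt ?_ ?_)
    · rw [w4a_norm_map]
      exact ih
    · apply D.hφ
      rw [norm_pow]
      exact pow_le_one₀ (norm_nonneg _) hx

/-- the fixed units -/
def U (u : Ω) : Prop := W4Fixed q D.ζ u ∧ ‖u‖ = 1

variable {D}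

theorem U.ne_zero {u : Ω} (hu : D.U u) : u ≠ 0 := fun h => by
  have := hu.2
  rw [h, norm_zero] at this
  exact zero_ne_one this

variable (D) in
theorem U_one : D.U 1 := ⟨w4Fixed_one _, norm_one⟩

theorem U.mul {u v : Ω} (hu : D.U u) (hv : D.U v) : D.U (u * v) :=
  ⟨hu.1.mul hv.1, by rw [norm_mul, hu.2, hv.2, one_mul]⟩

theorem U.pow {u : Ω} (hu : D.U u) (n : ℕ) : D.U (u ^ n) :=
  ⟨hu.1.pow n, by rw [norm_pow, hu.2, one_pow]⟩

theorem U.inv {u : Ω} (hu : D.U u) : D.U u⁻¹ :=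
  ⟨hu.1.inv, by rw [norm_inv, hu.2, inv_one]⟩

theorem U.div {u v : Ω} (hu : D.U u) (hv : D.U v) : D.U (u / v) :=
  ⟨hu.1.div hv.1, by rw [norm_div, hu.2, hv.2, div_one]⟩

theorem U.map {u : Ω} (hu : D.U u) (g : Ω ≃ₐ[ℚ_[q]] Ω) : D.U (g u) :=
  ⟨D.fixed_map hu.1 g, by rw [w4a_norm_map, hu.2]⟩

variable (D) in
theorem U_prod {ι : Type*} (s : Finset ι) (f : ι → Ω) (h : ∀ i ∈ s, D.U (f i)) :
    D.U (∏ i ∈ s, f i) := by
  classical
  induction s using Finset.induction_on with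
  | empty => simpa using D.U_one
  | insert a s ha ih =>
    rw [Finset.prod_insert ha]
    exact (h a (Finset.mem_insert_self a s)).mul
      (ih fun i hi => h i (Finset.mem_insert_of_mem hi))

/-- `u ^ m ≡ 1` for the fixed units -/
theorem U.pow_m_sub_one {u : Ω} (hu : D.U u) : ‖u ^ D.m - 1‖ ≤ (q : ℝ)⁻¹ := by
  have h1 : (D.φ ^ D.d) u = u := hu.1 _ D.phi_d_zeta
  have h2 := D.phi_pow_congr D.d hu.2.le
  rw [h1, ← D.m_add_one] at h2
  have e : u - u ^ (D.m + 1) = -(u * (u ^ D.m - 1)) := by ring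
  rw [e, norm_neg, norm_mul, hu.2, one_mul] at h2
  exact W4Fixed.norm_le_of_lt D.m_coprime D.hζ' ((hu.1.pow _).sub (w4Fixed_one _)) h2

variable (D)

/-- `θ u = (u ^ m - 1) / q` -/
noncomputable def θ (u : Ω) : Ω := (u ^ D.m - 1) / q

theorem q_mul_θ (u : Ω) : (q : Ω) * D.θ u = u ^ D.m - 1 := by
  unfold θ
  rw [mul_div_cancel₀ _ (w4a_q_ne_zero q)]

theorem θ_fixed {u : Ω} (hu : W4Fixed q D.ζ u) : W4Fixed q D.ζ (D.θ u) :=
  ((hu.pow _).sub (w4Fixed_one _)).div (w4Fixed_natCast _ q)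

variable {D} in
theorem U.norm_θ {u : Ω} (hu : D.U u) : ‖D.θ u‖ ≤ 1 := by
  unfold θ
  rw [norm_div, w4a_norm_q, div_le_iff₀ (inv_pos.2 (w4a_q_pos q)), one_mul]
  exact hu.pow_m_sub_one

theorem θ_one : D.θ 1 = 0 := by
  unfold θ
  rw [one_pow, sub_self, zero_div]

theorem θ_map (g : Ω ≃ₐ[ℚ_[q]] Ω) (u : Ω) : D.θ (g u) = g (D.θ u) := by
  unfold θ
  rw [map_div₀, map_sub, map_pow, map_one, map_natCast]

variable {D}

/-- `θ (u v) ≡ θ u + θ v` -/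
theorem U.θ_mul {u v : Ω} (hu : D.U u) (hv : D.U v) :
    ‖D.θ (u * v) - (D.θ u + D.θ v)‖ < 1 := by
  have e : D.θ (u * v) - (D.θ u + D.θ v) = (q : Ω) * (D.θ u * D.θ v) := by
    have h1 := D.q_mul_θ u
    have h2 := D.q_mul_θ v
    have h3 := D.q_mul_θ (u * v)
    have hq0 := w4a_q_ne_zero q
    apply mul_left_cancel₀ hq0
    rw [mul_sub, mul_add, h3, h1, h2]
    have : (q : Ω) * ((q : Ω) * (D.θ u * D.θ v)) = ((q : Ω) * D.θ u) * ((q : Ω) * D.θ v) := by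
      ring
    rw [this, h1, h2]
    ring
  rw [e, norm_mul, norm_mul, w4a_norm_q]
  have h1 := hu.norm_θ
  have h2 := hv.norm_θ
  calc (q : ℝ)⁻¹ * (‖D.θ u‖ * ‖D.θ v‖) ≤ (q : ℝ)⁻¹ * (1 * 1) := by
        apply mul_le_mul_of_nonneg_left _ (inv_nonneg.2 (w4a_q_pos q).le)
        exact mul_le_mul h1 h2 (norm_nonneg _) zero_le_one
    _ < 1 := by
        rw [mul_one, mul_one]
        exact inv_lt_one_of_one_lt₀ (w4a_one_lt_q q)

end W4Data

/-! ### congruences modulo the maximal ideal -/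

/-- `a ≡ b` modulo the maximal ideal of `Ω` -/
def W4Cg (a b : Ω) : Prop := ‖a - b‖ < 1

theorem W4Cg.refl (a : Ω) : W4Cg a a := by
  unfold W4Cg
  rw [sub_self, norm_zero]
  exact one_pos

theorem W4Cg.of_eq {a b : Ω} (h : a = b) : W4Cg a b := h ▸ W4Cg.refl a

theorem W4Cg.symm {a b : Ω} (h : W4Cg a b) : W4Cg b a := by
  unfold W4Cg at h ⊢
  rwa [norm_sub_rev]

theorem W4Cg.trans {a b c : Ω} (h : W4Cg a b) (h' : W4Cg b c) : W4Cg a c := by
  unfold W4Cg at h h' ⊢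
  have e : a - c = (a - b) + (b - c) := by ring
  rw [e]
  exact lt_of_le_of_lt (w4a_norm_add_le q _ _) (max_lt h h')

theorem W4Cg.add {a b c d : Ω} (h : W4Cg a b) (h' : W4Cg c d) : W4Cg (a + c) (b + d) := by
  unfold W4Cg at h h' ⊢
  have e : a + c - (b + d) = (a - b) + (c - d) := by ring
  rw [e]
  exact lt_of_le_of_lt (w4a_norm_add_le q _ _) (max_lt h h')

theorem W4Cg.sub {a b c d : Ω} (h : W4Cg a b) (h' : W4Cg c d) : W4Cg (a - c) (b - d) := by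
  unfold W4Cg at h h' ⊢
  have e : a - c - (b - d) = (a - b) - (c - d) := by ring
  rw [e]
  exact lt_of_le_of_lt (w4a_norm_sub_le q _ _) (max_lt h h')

theorem W4Cg.mul_left {a b : Ω} (h : W4Cg a b) {c : Ω} (hc : ‖c‖ ≤ 1) : W4Cg (c * a) (c * b) := by
  unfold W4Cg at h ⊢
  rw [← mul_sub, norm_mul]
  exact lt_of_le_of_lt (mul_le_of_le_one_left (norm_nonneg _) hc) h

theorem W4Cg.pow {a b : Ω} (h : W4Cg a b) (ha : ‖a‖ ≤ 1) (hb : ‖b‖ ≤ 1) (n : ℕ) :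
    W4Cg (a ^ n) (b ^ n) :=
  lt_of_le_of_lt (w4a_norm_pow_sub_pow_le q ha hb n) h

theorem W4Cg.norm_le {a b : Ω} (h : W4Cg a b) (hb : ‖b‖ ≤ 1) : ‖a‖ ≤ 1 := by
  have e : a = (a - b) + b := by ring
  rw [e]
  exact (w4a_norm_add_le q _ _).trans (max_le h.le hb)

theorem W4Cg.sum {ι : Type*} (s : Finset ι) {f g : ι → Ω} (h : ∀ i ∈ s, W4Cg (f i) (g i)) :
    W4Cg (∑ i ∈ s, f i) (∑ i ∈ s, g i) := by
  classical
  induction s using Finset.induction_on with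
  | empty => simpa using W4Cg.refl (0 : Ω)
  | insert a s ha ih =>
    rw [Finset.sum_insert ha, Finset.sum_insert ha]
    exact (h a (Finset.mem_insert_self a s)).add
      (ih fun i hi => h i (Finset.mem_insert_of_mem hi))

theorem w4Cg_zero_of_norm_lt {a : Ω} (h : ‖a‖ < 1) : W4Cg a 0 := by
  unfold W4Cg
  rwa [sub_zero]

theorem W4Cg.norm_lt {a : Ω} (h : W4Cg a 0) : ‖a‖ < 1 := by
  unfold W4Cg at h
  rwa [sub_zero] at h

theorem w4a_norm_sum_le {ι : Type*} (s : Finset ι) (f : ι → Ω) (h : ∀ i ∈ s, ‖f i‖ ≤ 1) :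
    ‖∑ i ∈ s, f i‖ ≤ 1 :=
  IsUltrametricDist.norm_sum_le_of_forall_le_of_nonneg zero_le_one h

namespace W4Data

variable {D : W4Data q}

theorem U.θ_mul' {u v : Ω} (hu : D.U u) (hv : D.U v) :
    W4Cg (D.θ (u * v)) (D.θ u + D.θ v) := hu.θ_mul hv

/-- `θ (u ^ n) ≡ n θ u` -/
theorem U.θ_pow {u : Ω} (hu : D.U u) (n : ℕ) : W4Cg (D.θ (u ^ n)) ((n : Ω) * D.θ u) := by
  induction n with
  | zero =>
    rw [pow_zero, D.θ_one, Nat.cast_zero, zero_mul]
    exact W4Cg.refl 0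
  | succ n ih =>
    rw [pow_succ, Nat.cast_succ, add_mul, one_mul]
    exact ((hu.pow n).θ_mul' hu).trans (ih.add (W4Cg.refl _))

variable (D) in
/-- `θ (∏ f i ^ e i) ≡ ∑ e i θ (f i)` -/
theorem θ_prod {ι : Type*} (s : Finset ι) (f : ι → Ω) (e : ι → ℕ) (h : ∀ i ∈ s, D.U (f i)) :
    W4Cg (D.θ (∏ i ∈ s, f i ^ e i)) (∑ i ∈ s, (e i : Ω) * D.θ (f i)) := by
  classical
  induction s using Finset.induction_on with
  | empty =>
    rw [Finset.prod_empty, Finset.sum_empty, D.θ_one]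
    exact W4Cg.refl 0
  | insert a s ha ih =>
    rw [Finset.prod_insert ha, Finset.sum_insert ha]
    have h1 : D.U (f a ^ e a) := (h a (Finset.mem_insert_self a s)).pow _
    have h2 : D.U (∏ i ∈ s, f i ^ e i) :=
      D.U_prod s _ fun i hi => (h i (Finset.mem_insert_of_mem hi)).pow _
    exact (h1.θ_mul' h2).trans
      (((h a (Finset.mem_insert_self a s)).θ_pow _).add
        (ih fun i hi => h i (Finset.mem_insert_of_mem hi)))

/-- `θ (w ^ q) ≡ 0` -/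
theorem U.θ_pow_q {w : Ω} (hw : D.U w) : W4Cg (D.θ (w ^ q)) 0 := by
  refine (hw.θ_pow q).trans (w4Cg_zero_of_norm_lt ?_)
  rw [norm_mul, w4a_norm_q]
  calc (q : ℝ)⁻¹ * ‖D.θ w‖ ≤ (q : ℝ)⁻¹ * 1 :=
        mul_le_mul_of_nonneg_left hw.norm_θ (inv_nonneg.2 (w4a_q_pos q).le)
    _ < 1 := by
        rw [mul_one]
        exact inv_lt_one_of_one_lt₀ (w4a_one_lt_q q)

/-- `θ (φ ^ j u) ≡ (θ u) ^ (q ^ j)` -/
theorem U.θ_phi_pow {u : Ω} (hu : D.U u) (j : ℕ) :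
    W4Cg (D.θ ((D.φ ^ j) u)) (D.θ u ^ (q ^ j)) := by
  rw [D.θ_map]
  exact D.phi_pow_congr j hu.norm_θ

/-- the kernel of `θ` consists of `q`-th powers -/
theorem U.exists_pow_eq (hq2 : q ≠ 2) {u : Ω} (hu : D.U u) (h : W4Cg (D.θ u) 0) :
    ∃ w : Ω, D.U w ∧ w ^ q = u := by
  have hq : q.Prime := Fact.out
  have hqi0 : (0 : ℝ) < (q : ℝ)⁻¹ := inv_pos.2 (w4a_q_pos q)
  have h1 : ‖D.θ u‖ ≤ (q : ℝ)⁻¹ :=
    W4Fixed.norm_le_of_lt D.m_coprime D.hζ' (D.θ_fixed hu.1) h.norm_lt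
  have h2 : ‖u ^ D.m - 1‖ ≤ ((q : ℝ)⁻¹) ^ 2 := by
    rw [← D.q_mul_θ, norm_mul, w4a_norm_q, pow_two]
    exact mul_le_mul_of_nonneg_left h1 hqi0.le
  obtain ⟨w₁, hw₁, hw₁u⟩ := W4Fixed.exists_pow_eq hq2 D.m_pos D.hζ' (hu.1.pow D.m) h2
  have hw₁n : ‖w₁‖ = 1 := by
    have h3 : ‖w₁‖ ^ q = 1 := by rw [← norm_pow, hw₁u, norm_pow, hu.2, one_pow]
    exact (pow_eq_one_iff_of_nonneg (norm_nonneg _) hq.ne_zero).1 h3
  have hw₁U : D.U w₁ := ⟨hw₁, hw₁n⟩
  obtain ⟨d', hd'⟩ : ∃ d', D.d = d' + 1 := ⟨D.d - 1, by have := D.hd; omega⟩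
  refine ⟨u ^ (q ^ d') / w₁, (hu.pow _).div hw₁U, ?_⟩
  rw [div_pow, hw₁u, ← pow_mul, ← pow_succ, ← hd', ← D.m_add_one, pow_succ]
  exact mul_div_cancel_left₀ u (pow_ne_zero _ hu.ne_zero)

end W4Data

end Fermat.Agent.S56.W4A
end MergeWrap_S56_W4_CountA_Theta

section MergeWrap_S56_W4_CountA_Kum -- from S56/W4/CountA/Kum.lean

/-!
# S56 / W4 / CountA / Kum : Kummer generators over `ℚ_q(ζ_m)`

`G = Gal(Ω/ℚ_q)`, `H' = Stab(ζ)`, `ε` a primitive `q`-th root of unity, `ω` the mod `q` cyclotomic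
character, `η : G → kˣ` a character trivial on `H'`, `ψ = ω η`, `μ₀ : k → 𝔽_q` linear.
For a cocycle `f` of `k(ψ)` and `x ∈ k`, `B ∈ Ω^×` is a *Kummer generator* (`IsKum f x B`) if
`h B = ε ^ μ₀(x f(h)) B` for all `h ∈ H'`.
-/

set_option autoImplicit false

open Polynomial IntermediateField
open scoped NNReal

namespace Fermat.Agent.S56.W4A

open Fermat.Agent.F4.Loc Fermat.Agent.S56.SO

/-- The context of the count. -/
structure W4Ctx (q : ℕ) [Fact q.Prime] (k : Type) [Field k] [Algebra (ZMod q) k]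
    extends W4Data q where
  ε : PadicAlgCl q
  hε : IsPrimitiveRoot ε q
  ω : (PadicAlgCl q ≃ₐ[ℚ_[q]] PadicAlgCl q) →* (ZMod q)ˣ
  hω : ∀ γ, γ ε = ε ^ ((ω γ : (ZMod q)ˣ) : ZMod q).val
  η : (PadicAlgCl q ≃ₐ[ℚ_[q]] PadicAlgCl q) →* kˣ
  hη : ∀ h : PadicAlgCl q ≃ₐ[ℚ_[q]] PadicAlgCl q, h ζ = ζ → η h = 1
  μ₀ : k →ₗ[ZMod q] ZMod q

variable {q : ℕ} [Fact q.Prime] {k : Type} [Field k] [Algebra (ZMod q) k]

local notation "Ω" => PadicAlgCl q
local notation "G" => (PadicAlgCl q ≃ₐ[ℚ_[q]] PadicAlgCl q)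

namespace W4Ctx

variable (C : W4Ctx q k)

/-- the cyclotomic character with values in `𝔽_q` -/
noncomputable def ω' (γ : G) : ZMod q := ((C.ω γ : (ZMod q)ˣ) : ZMod q)

theorem ω'_mul (σ τ : G) : C.ω' (σ * τ) = C.ω' σ * C.ω' τ := by
  unfold ω'
  rw [map_mul, Units.val_mul]

theorem ω'_one : C.ω' 1 = 1 := by
  unfold ω'
  rw [map_one, Units.val_one]

theorem ω'_inv_mul (σ : G) : C.ω' σ⁻¹ * C.ω' σ = 1 := by
  rw [← C.ω'_mul, inv_mul_cancel, C.ω'_one]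

theorem ω'_ne_zero (σ : G) : C.ω' σ ≠ 0 := (C.ω σ).ne_zero

/-- the character `ψ = ω η` -/
noncomputable def ψ (γ : G) : k := algebraMap (ZMod q) k (C.ω' γ) * (C.η γ : k)

theorem ψ_mul (σ τ : G) : C.ψ (σ * τ) = C.ψ σ * C.ψ τ := by
  unfold ψ
  rw [C.ω'_mul, map_mul, map_mul, Units.val_mul]
  ring

theorem ψ_one : C.ψ 1 = 1 := by
  unfold ψ
  rw [C.ω'_one, map_one, map_one, Units.val_one, mul_one]

theorem ψ_inv_mul (σ : G) : C.ψ σ⁻¹ * C.ψ σ = 1 := by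
  rw [← C.ψ_mul, inv_mul_cancel, C.ψ_one]

theorem ψ_of_fix {h : G} (hh : h C.ζ = C.ζ) : C.ψ h = algebraMap (ZMod q) k (C.ω' h) := by
  unfold ψ
  rw [C.hη h hh, Units.val_one, mul_one]

theorem eps_pow : C.ε ^ q = 1 := C.hε.pow_eq_one

theorem eps_ne_zero : C.ε ≠ 0 := C.hε.ne_zero (Fact.out : q.Prime).ne_zero

theorem map_eps (γ : G) : γ C.ε = kfpE C.ε (C.ω' γ) := C.hω γ

theorem map_kfpE (γ : G) (c : ZMod q) : γ (kfpE C.ε c) = kfpE C.ε (c * C.ω' γ) := by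
  rw [kfpE_mul C.eps_pow, ← C.map_eps]
  unfold kfpE
  rw [map_pow]

theorem kfpE_ne_zero (c : ZMod q) : kfpE C.ε c ≠ 0 := pow_ne_zero _ C.eps_ne_zero

theorem kfpE_zero : kfpE C.ε (0 : ZMod q) = 1 := by
  unfold kfpE
  rw [ZMod.val_zero, pow_zero]

/-- the cocycles of `k(ψ)` -/
def IsCoc (f : G → k) : Prop := ∀ σ τ : G, f (σ * τ) = f σ + C.ψ σ * f τ

variable {C}

theorem IsCoc.map_one {f : G → k} (hf : C.IsCoc f) : f 1 = 0 := by
  have h := hf 1 1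
  rw [mul_one, C.ψ_one, one_mul] at h
  exact add_eq_left.1 h.symm

theorem IsCoc.map_inv {f : G → k} (hf : C.IsCoc f) (τ : G) : f τ = -(C.ψ τ * f τ⁻¹) := by
  have h := hf τ τ⁻¹
  rw [mul_inv_cancel, hf.map_one] at h
  exact eq_neg_of_add_eq_zero_left h.symm

/-- `f (τ⁻¹ h τ) = ψ(τ⁻¹) f(h) + (1 - ψ h) f(τ⁻¹)` -/
theorem IsCoc.conj {f : G → k} (hf : C.IsCoc f) (τ h : G) :
    f (τ⁻¹ * h * τ) = C.ψ τ⁻¹ * f h + (1 - C.ψ h) * f τ⁻¹ := by
  rw [mul_assoc, hf τ⁻¹ (h * τ), hf h τ, hf.map_inv τ]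
  have h1 := C.ψ_inv_mul τ
  linear_combination (-(C.ψ h * f τ⁻¹)) * h1

theorem IsCoc.sub {f f' : G → k} (hf : C.IsCoc f) (hf' : C.IsCoc f') :
    C.IsCoc (fun γ => f γ - f' γ) := by
  intro σ τ
  show f (σ * τ) - f' (σ * τ) = f σ - f' σ + C.ψ σ * (f τ - f' τ)
  rw [hf σ τ, hf' σ τ]
  ring

variable (C)

/-- `B` is a Kummer generator for `μ₀ (x · f)` on the stabiliser of `ζ`. -/
def IsKum (f : G → k) (x : k) (B : Ω) : Prop :=
  B ≠ 0 ∧ ∀ h : G, h C.ζ = C.ζ → h B = kfpE C.ε (C.μ₀ (x * f h)) * B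

variable {C}

theorem isKum_zero_one (f : G → k) : C.IsKum f 0 1 := by
  refine ⟨one_ne_zero, fun h _ => ?_⟩
  rw [zero_mul, map_zero, C.kfpE_zero, map_one, one_mul]

theorem IsKum.mul {f : G → k} {x x' : k} {B B' : Ω} (h : C.IsKum f x B) (h' : C.IsKum f x' B') :
    C.IsKum f (x + x') (B * B') := by
  have : NeZero q := ⟨(Fact.out : q.Prime).ne_zero⟩
  refine ⟨mul_ne_zero h.1 h'.1, fun g hg => ?_⟩
  rw [map_mul, h.2 g hg, h'.2 g hg, add_mul, map_add, kfpE_add C.eps_pow]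
  ring

theorem IsKum.pow {f : G → k} {x : k} {B : Ω} (h : C.IsKum f x B) (n : ℕ) :
    C.IsKum f ((n : k) * x) (B ^ n) := by
  induction n with
  | zero =>
    rw [Nat.cast_zero, zero_mul, pow_zero]
    exact isKum_zero_one f
  | succ n ih =>
    rw [Nat.cast_succ, add_mul, one_mul, pow_succ]
    exact ih.mul h

theorem IsKum.prod {f : G → k} {ι : Type*} (s : Finset ι) (x : ι → k) (B : ι → Ω) (e : ι → ℕ)
    (h : ∀ i ∈ s, C.IsKum f (x i) (B i)) :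
    C.IsKum f (∑ i ∈ s, (e i : k) * x i) (∏ i ∈ s, B i ^ e i) := by
  classical
  induction s using Finset.induction_on with
  | empty =>
    rw [Finset.sum_empty, Finset.prod_empty]
    exact isKum_zero_one f
  | insert a s ha ih =>
    rw [Finset.sum_insert ha, Finset.prod_insert ha]
    exact ((h a (Finset.mem_insert_self a s)).pow _).mul
      (ih fun i hi => h i (Finset.mem_insert_of_mem hi))

theorem IsKum.fixed {f : G → k} {B : Ω} (h : C.IsKum f 0 B) : W4Fixed q C.ζ B := by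
  intro g hg
  rw [h.2 g hg, zero_mul, map_zero, C.kfpE_zero, one_mul]

theorem IsKum.pow_q_fixed {f : G → k} {x : k} {B : Ω} (h : C.IsKum f x B) :
    W4Fixed q C.ζ (B ^ q) := by
  intro g hg
  rw [map_pow, h.2 g hg, mul_pow, kfpE_pow C.eps_pow, one_mul]

theorem IsKum.mul_fixed {f : G → k} {x : k} {B z : Ω} (h : C.IsKum f x B) (hz : W4Fixed q C.ζ z)
    (hz0 : z ≠ 0) : C.IsKum f x (B * z) := by
  refine ⟨mul_ne_zero h.1 hz0, fun g hg => ?_⟩
  rw [map_mul, h.2 g hg, hz g hg, mul_assoc]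

/-- the twist: from `x` to `x ψ(φ⁻¹)` -/
theorem IsKum.twist {f : G → k} (hf : C.IsCoc f) {x : k} {B : Ω} (h : C.IsKum f x B) :
    C.IsKum f (x * C.ψ C.φ⁻¹)
      ((C.φ B) ^ (C.ω' C.φ⁻¹).val * kfpE C.ε (C.μ₀ (x * f C.φ⁻¹))) := by
  have : NeZero q := ⟨(Fact.out : q.Prime).ne_zero⟩
  have hφB : C.φ B ≠ 0 := (_root_.map_ne_zero _).2 h.1
  refine ⟨mul_ne_zero (pow_ne_zero _ hφB) (C.kfpE_ne_zero _), fun g hg => ?_⟩
  set τ := C.φ with hτ
  set t := C.μ₀ (x * f τ⁻¹) with ht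
  set w := C.ω' τ⁻¹ with hw
  have hg' : (τ⁻¹ * g * τ) C.ζ = C.ζ := C.toW4Data.conj_zeta τ g hg
  -- `g (τ B) = τ (g' B)`
  have e1 : g (τ B) = τ ((τ⁻¹ * g * τ) B) := by
    rw [AlgEquiv.mul_apply, AlgEquiv.mul_apply]
    exact (τ.apply_symm_apply _).symm
  have e2 : g (τ B) = kfpE C.ε (C.μ₀ (x * f (τ⁻¹ * g * τ)) * C.ω' τ) * τ B := by
    rw [e1, h.2 _ hg', map_mul, C.map_kfpE]
  have e3 : C.μ₀ (x * f (τ⁻¹ * g * τ)) =
      C.μ₀ (x * C.ψ τ⁻¹ * f g) + (1 - C.ω' g) * t := by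
    rw [hf.conj τ g, C.ψ_of_fix hg, ht, ← smul_eq_mul (a := 1 - C.ω' g), ← map_smul, ← map_add]
    congr 1
    rw [Algebra.smul_def, map_sub, map_one]
    ring
  have e4 : g (τ B ^ w.val) = kfpE C.ε (C.μ₀ (x * f (τ⁻¹ * g * τ))) * τ B ^ w.val := by
    rw [map_pow, e2, mul_pow]
    congr 1
    have : kfpE C.ε (C.μ₀ (x * f (τ⁻¹ * g * τ)) * C.ω' τ) ^ w.val =
        kfpE C.ε (w * (C.μ₀ (x * f (τ⁻¹ * g * τ)) * C.ω' τ)) := (kfpE_mul C.eps_pow _ _).symm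
    rw [this]
    congr 1
    have h1 : w * C.ω' τ = 1 := C.ω'_inv_mul τ
    linear_combination (C.μ₀ (x * f (τ⁻¹ * g * τ))) * h1
  rw [map_mul, e4, C.map_kfpE, e3]
  have e5 : kfpE C.ε (C.μ₀ (x * C.ψ τ⁻¹ * f g)) * kfpE C.ε t =
      kfpE C.ε (C.μ₀ (x * C.ψ τ⁻¹ * f g) + (1 - C.ω' g) * t) * kfpE C.ε (t * C.ω' g) := by
    rw [← kfpE_add C.eps_pow, ← kfpE_add C.eps_pow]
    congr 1
    ring
  calc kfpE C.ε (C.μ₀ (x * C.ψ τ⁻¹ * f g) + (1 - C.ω' g) * t) * τ B ^ w.val *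
        kfpE C.ε (t * C.ω' g)
      = (kfpE C.ε (C.μ₀ (x * C.ψ τ⁻¹ * f g) + (1 - C.ω' g) * t) * kfpE C.ε (t * C.ω' g)) *
        τ B ^ w.val := by ring
    _ = kfpE C.ε (C.μ₀ (x * C.ψ τ⁻¹ * f g)) * (τ B ^ w.val * kfpE C.ε t) := by
        rw [← e5]
        ring

variable (C)

/-- `L = ψ(φ⁻¹)` -/
noncomputable def L : k := C.ψ C.φ⁻¹

/-- `w = ω(φ⁻¹)` -/
noncomputable def w : ZMod q := C.ω' C.φ⁻¹

variable {C}

/-- iterated twists -/
theorem IsKum.iter {f : G → k} (hf : C.IsCoc f) {x : k} {B : Ω} (h : C.IsKum f x B) (j : ℕ) :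
    ∃ Bj : Ω, C.IsKum f (x * C.L ^ j) Bj ∧ Bj ^ q = ((C.φ ^ j) (B ^ q)) ^ (C.w.val ^ j) := by
  induction j with
  | zero =>
    refine ⟨B, ?_, ?_⟩
    · rw [pow_zero, mul_one]
      exact h
    · rw [pow_zero, pow_zero, pow_one]
      rfl
  | succ j ih =>
    obtain ⟨Bj, hBj, hBjq⟩ := ih
    refine ⟨(C.φ Bj) ^ (C.ω' C.φ⁻¹).val * kfpE C.ε (C.μ₀ (x * C.L ^ j * f C.φ⁻¹)), ?_, ?_⟩
    · have := hBj.twist hf
      rw [mul_assoc, show C.ψ C.φ⁻¹ = C.L from rfl, ← pow_succ] at this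
      exact this
    · rw [mul_pow, kfpE_pow C.eps_pow, mul_one, ← pow_mul, mul_comm, pow_mul, ← map_pow, hBjq,
        map_pow, ← pow_mul, pow_succ' C.φ j, AlgEquiv.mul_apply, pow_succ C.w.val j]
      rfl

/-! ### the relation coming from the minimal polynomial of `L` -/

theorem natCast_val_eq_algebraMap (c : ZMod q) : ((c.val : ℕ) : k) = algebraMap (ZMod q) k c := by
  have : NeZero q := ⟨(Fact.out : q.Prime).ne_zero⟩
  have h := map_natCast (algebraMap (ZMod q) k) c.val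
  rw [ZMod.natCast_val, ZMod.cast_id', id] at h
  exact h.symm

variable (C)

/-- the minimal polynomial of `L` over `𝔽_q` -/
noncomputable def cpoly : (ZMod q)[X] := minpoly (ZMod q) C.L

/-- its degree -/
noncomputable def s : ℕ := C.cpoly.natDegree

/-- the exponents of the relation -/
noncomputable def e (j : ℕ) : ℕ := C.w.val ^ j * (C.cpoly.coeff j).val

variable {C}

theorem IsKum.rel {f : G → k} (hf : C.IsCoc f) {x : k} {B : Ω} (h : C.IsKum f x B) :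
    ∃ Z : Ω, W4Fixed q C.ζ Z ∧ Z ≠ 0 ∧
      Z ^ q = ∏ j ∈ Finset.range (C.s + 1), ((C.φ ^ j) (B ^ q)) ^ C.e j := by
  choose Bf hBf hBfq using fun j => h.iter hf j
  have hZ := IsKum.prod (C := C) (f := f) (Finset.range (C.s + 1)) (fun j => x * C.L ^ j) Bf
    (fun j => (C.cpoly.coeff j).val) (fun j _ => hBf j)
  have hsum : ∑ j ∈ Finset.range (C.s + 1), (((C.cpoly.coeff j).val : ℕ) : k) * (x * C.L ^ j)
      = 0 := by
    have h1 : aeval C.L C.cpoly = 0 := minpoly.aeval _ _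
    rw [aeval_eq_sum_range] at h1
    have h2 : ∑ j ∈ Finset.range (C.s + 1), (((C.cpoly.coeff j).val : ℕ) : k) * (x * C.L ^ j)
        = x * ∑ j ∈ Finset.range (C.cpoly.natDegree + 1), C.cpoly.coeff j • C.L ^ j := by
      rw [Finset.mul_sum]
      refine Finset.sum_congr rfl fun j _ => ?_
      rw [natCast_val_eq_algebraMap, Algebra.smul_def]
      ring
    rw [h2, h1, mul_zero]
  rw [hsum] at hZ
  refine ⟨_, hZ.fixed, hZ.1, ?_⟩
  rw [← Finset.prod_pow]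
  refine Finset.prod_congr rfl fun j _ => ?_
  rw [← pow_mul, mul_comm, pow_mul, hBfq, ← pow_mul]
  rfl

/-- `∑ e_j = c(w) ≠ 0` in `𝔽_q` -/
theorem e_sum_ne [Finite k] (hL : C.L ≠ algebraMap (ZMod q) k C.w) :
    ¬ q ∣ ∑ j ∈ Finset.range (C.s + 1), C.e j := by
  have : NeZero q := ⟨(Fact.out : q.Prime).ne_zero⟩
  rw [← ZMod.natCast_eq_zero_iff]
  have h1 : ((∑ j ∈ Finset.range (C.s + 1), C.e j : ℕ) : ZMod q) = C.cpoly.eval C.w := by
    rw [eval_eq_sum_range, Nat.cast_sum]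
    refine Finset.sum_congr rfl fun j _ => ?_
    unfold e
    rw [Nat.cast_mul, Nat.cast_pow, ZMod.natCast_val, ZMod.natCast_val, ZMod.cast_id', id,
      id, mul_comm]
  rw [h1]
  intro h0
  have hint : IsIntegral (ZMod q) C.L := Algebra.IsIntegral.isIntegral _
  have hirr : Irreducible C.cpoly := minpoly.irreducible hint
  have hdeg : C.cpoly.degree = 1 := degree_eq_one_of_irreducible_of_root hirr h0
  obtain ⟨a, ha⟩ := minpoly.mem_range_of_degree_eq_one (ZMod q) C.L hdeg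
  have hc : C.cpoly = X - Polynomial.C a := by
    unfold cpoly
    rw [← ha]
    exact minpoly.eq_X_sub_C_of_algebraMap_inj a (algebraMap (ZMod q) k).injective
  rw [hc, eval_sub, eval_X, eval_C, sub_eq_zero] at h0
  apply hL
  rw [h0, ← ha]

theorem e_top_norm [Finite k] : ‖((C.e C.s : ℕ) : Ω)‖ = 1 := by
  have hq : q.Prime := Fact.out
  have : NeZero q := ⟨hq.ne_zero⟩
  apply w4a_norm_natCast_of_not_dvd
  have hint : IsIntegral (ZMod q) C.L := Algebra.IsIntegral.isIntegral _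
  have hmon : C.cpoly.Monic := minpoly.monic hint
  have h1 : C.cpoly.coeff C.s = 1 := hmon.coeff_natDegree
  unfold e
  rw [h1, ZMod.val_one'' hq.ne_one, mul_one]
  intro hdvd
  have h2 : q ∣ C.w.val := hq.dvd_of_dvd_pow hdvd
  have h3 : C.w = 0 := by
    rw [← ZMod.natCast_eq_zero_iff, ZMod.natCast_val, ZMod.cast_id', id] at h2
    exact h2
  exact C.ω'_ne_zero _ h3

theorem e_norm_le (j : ℕ) : ‖((C.e j : ℕ) : Ω)‖ ≤ 1 := w4a_norm_natCast_le q _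

/-- a Kummer generator can be normalised to a unit -/
theorem IsKum.exists_unit [Finite k] (hL : C.L ≠ algebraMap (ZMod q) k C.w) {f : G → k}
    (hf : C.IsCoc f) {x : k} {B : Ω} (h : C.IsKum f x B) :
    ∃ B₁ : Ω, C.IsKum f x B₁ ∧ ‖B₁‖ = 1 := by
  have hq : q.Prime := Fact.out
  have hq1 : (1 : ℝ) < q := w4a_one_lt_q q
  have hq0 : (0 : ℝ) < q := w4a_q_pos q
  obtain ⟨Z, hZf, hZ0, hZq⟩ := h.rel hf
  have hX0 : B ^ q ≠ 0 := pow_ne_zero _ h.1
  obtain ⟨n, hn⟩ := W4Fixed.norm_eq C.toW4Data.m_coprime C.toW4Data.hζ' h.pow_q_fixed hX0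
  obtain ⟨a, ha⟩ := W4Fixed.norm_eq C.toW4Data.m_coprime C.toW4Data.hζ' hZf hZ0
  have h1 : ‖Z‖ ^ q = ‖B ^ q‖ ^ (∑ j ∈ Finset.range (C.s + 1), C.e j) := by
    rw [← norm_pow, hZq, norm_prod, ← Finset.prod_pow_eq_pow_sum]
    refine Finset.prod_congr rfl fun j _ => ?_
    rw [norm_pow, w4a_norm_map]
  rw [ha, hn, ← zpow_natCast, ← zpow_natCast, ← zpow_mul, ← zpow_mul] at h1
  have h2 : a * (q : ℤ) = n * ((∑ j ∈ Finset.range (C.s + 1), C.e j : ℕ) : ℤ) :=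
    zpow_right_injective₀ hq0 hq1.ne' h1
  have h3 : (q : ℤ) ∣ n := by
    have h4 : (q : ℤ) ∣ n * ((∑ j ∈ Finset.range (C.s + 1), C.e j : ℕ) : ℤ) :=
      ⟨a, by rw [← h2, mul_comm]⟩
    rcases (Nat.prime_iff_prime_int.1 hq).dvd_or_dvd h4 with h5 | h5
    · exact h5
    · exact absurd (Int.natCast_dvd_natCast.1 h5) (e_sum_ne hL)
  obtain ⟨n', hn'⟩ := h3
  have hBn : ‖B‖ = (q : ℝ) ^ n' := by
    have h5 : ‖B‖ ^ q = ((q : ℝ) ^ n') ^ q := by
      rw [← norm_pow, hn, hn', mul_comm, zpow_mul, zpow_natCast]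
    have hnn : (0 : ℝ) ≤ ‖B‖ := norm_nonneg _
    have hnn' : (0 : ℝ) ≤ (q : ℝ) ^ n' := (zpow_pos hq0 _).le
    exact (pow_left_inj₀ hnn hnn' hq.ne_zero).1 h5
  have hq0' : (q : Ω) ≠ 0 := w4a_q_ne_zero q
  refine ⟨B * (q : Ω) ^ n', h.mul_fixed ((w4Fixed_natCast _ q).zpow n') (zpow_ne_zero _ hq0'), ?_⟩
  rw [norm_mul, norm_zpow, w4a_norm_q, hBn, inv_zpow, mul_inv_cancel₀ (zpow_ne_zero _ hq0.ne')]

/-- a unit Kummer generator gives a fixed unit `B ^ q` -/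
theorem IsKum.pow_q_U {f : G → k} {x : k} {B : Ω} (h : C.IsKum f x B) (hB : ‖B‖ = 1) :
    C.toW4Data.U (B ^ q) :=
  ⟨h.pow_q_fixed, by rw [norm_pow, hB, one_pow]⟩

/-- the relation satisfied by `θ (B ^ q)` -/
theorem IsKum.theta_rel {f : G → k} (hf : C.IsCoc f) {x : k} {B : Ω} (h : C.IsKum f x B)
    (hB : ‖B‖ = 1) :
    ‖∑ j ∈ Finset.range (C.s + 1), ((C.e j : ℕ) : Ω) * (C.toW4Data.θ (B ^ q)) ^ (q ^ j)‖ < 1 := by
  have hq : q.Prime := Fact.out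
  have hU : C.toW4Data.U (B ^ q) := h.pow_q_U hB
  obtain ⟨Z, hZf, hZ0, hZq⟩ := h.rel hf
  have hUj : ∀ j ∈ Finset.range (C.s + 1), C.toW4Data.U ((C.φ ^ j) (B ^ q)) :=
    fun j _ => hU.map _
  have hZn : ‖Z‖ = 1 := by
    have h1 : ‖Z‖ ^ q = 1 := by
      rw [← norm_pow, hZq]
      exact (C.toW4Data.U_prod _ _ fun j hj => (hUj j hj).pow _).2
    exact (pow_eq_one_iff_of_nonneg (norm_nonneg _) hq.ne_zero).1 h1
  have hZU : C.toW4Data.U Z := ⟨hZf, hZn⟩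
  have h1 : W4Cg (C.toW4Data.θ (Z ^ q)) 0 := hZU.θ_pow_q
  rw [hZq] at h1
  have h2 := C.toW4Data.θ_prod (Finset.range (C.s + 1)) (fun j => (C.φ ^ j) (B ^ q)) C.e hUj
  have h3 : W4Cg (∑ j ∈ Finset.range (C.s + 1), ((C.e j : ℕ) : Ω) *
      C.toW4Data.θ ((C.φ ^ j) (B ^ q)))
      (∑ j ∈ Finset.range (C.s + 1), ((C.e j : ℕ) : Ω) * (C.toW4Data.θ (B ^ q)) ^ (q ^ j)) :=
    W4Cg.sum _ fun j _ => (hU.θ_phi_pow j).mul_left (e_norm_le j)
  exact ((h3.symm.trans h2.symm).trans h1).norm_lt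

/-- comparison of two Kummer generators with the same `q`-th power class -/
theorem IsKum.compare {f f' : G → k} {x : k} {B B' z : Ω} (h : C.IsKum f x B)
    (h' : C.IsKum f' x B') (hz : W4Fixed q C.ζ z) (hzq : B ^ q = B' ^ q * z ^ q) :
    ∃ t : ZMod q, ∀ g : G, g C.ζ = C.ζ → C.μ₀ (x * (f g - f' g)) = (C.ω' g - 1) * t := by
  have hq : q.Prime := Fact.out
  have : NeZero q := ⟨hq.ne_zero⟩
  have hz0 : z ≠ 0 := by
    rintro rfl
    rw [zero_pow hq.ne_zero, mul_zero] at hzq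
    exact pow_ne_zero _ h.1 hzq
  have hB'z : B' * z ≠ 0 := mul_ne_zero h'.1 hz0
  have h1 : (B / (B' * z)) ^ q = 1 := by
    rw [div_pow, mul_pow, hzq]
    exact div_self (mul_ne_zero (pow_ne_zero _ h'.1) (pow_ne_zero _ hz0))
  obtain ⟨j, -, hj⟩ := C.hε.eq_pow_of_pow_eq_one h1
  have hB : B = B' * z * kfpE C.ε (j : ZMod q) := by
    rw [kfpE_natCast C.eps_pow, hj, mul_div_cancel₀ _ hB'z]
  refine ⟨(j : ZMod q), fun g hg => ?_⟩
  have e1 := h.2 g hg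
  have e2 : g B = kfpE C.ε (C.μ₀ (x * f' g)) * B' * z * kfpE C.ε ((j : ZMod q) * C.ω' g) := by
    conv_lhs => rw [hB]
    rw [map_mul, map_mul, h'.2 g hg, hz g hg, C.map_kfpE]
  have e3 : kfpE C.ε (C.μ₀ (x * f g) + (j : ZMod q)) * (B' * z) =
      kfpE C.ε (C.μ₀ (x * f' g) + (j : ZMod q) * C.ω' g) * (B' * z) := by
    rw [kfpE_add C.eps_pow, kfpE_add C.eps_pow]
    calc kfpE C.ε (C.μ₀ (x * f g)) * kfpE C.ε (j : ZMod q) * (B' * z)
        = kfpE C.ε (C.μ₀ (x * f g)) * (B' * z * kfpE C.ε (j : ZMod q)) := by ring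
      _ = g B := by rw [← hB, e1]
      _ = _ := by rw [e2]; ring
  have e4 := kfpE_injective C.hε (mul_right_cancel₀ hB'z e3)
  rw [mul_sub, map_sub]
  linear_combination e4

/-! ### existence: Hilbert 90 -/

variable (C)

/-- the stabiliser of `ζ` -/
def stab : Subgroup G where
  carrier := {g | g C.ζ = C.ζ}
  one_mem' := rfl
  mul_mem' := by
    intro a b ha hb
    show (a * b) C.ζ = C.ζ
    rw [AlgEquiv.mul_apply, hb, ha]
  inv_mem' := by
    intro a ha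
    show a⁻¹ C.ζ = C.ζ
    conv_lhs => rw [← ha]
    exact a.symm_apply_apply _

theorem mem_stab {g : G} : g ∈ C.stab ↔ g C.ζ = C.ζ := Iff.rfl

instance stab_normal : C.stab.Normal := by
  refine ⟨fun n hn g => ?_⟩
  have := C.toW4Data.conj_zeta g⁻¹ n hn
  rw [inv_inv] at this
  exact this

theorem stab_open : IsOpenSub q C.stab := by
  classical
  refine ⟨{C.ζ}, fun γ => ?_⟩
  rw [C.mem_stab]
  constructor
  · intro h x hx
    rw [Finset.mem_singleton] at hx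
    rw [hx]
    exact h
  · intro h
    exact h C.ζ (Finset.mem_singleton_self _)

variable {C}

theorem exists_isKum {f : G → k} (hf : C.IsCoc f) (hsm : SmoothC1 q f) (x : k) :
    ∃ B : Ω, C.IsKum f x B := by
  have hq : q.Prime := Fact.out
  have : NeZero q := ⟨hq.ne_zero⟩
  obtain ⟨V, hVn, hVo, hVf⟩ := hsm
  have : V.Normal := hVn
  have hWn : (V ⊓ C.stab).Normal := inferInstance
  have hH := h1Triv_of_open (isLocalGal_LG (q := q)) C.stab (V ⊓ C.stab) (hVo.inf C.stab_open)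
    inf_le_right
  set εu : Ωˣ := Units.mk0 C.ε C.eps_ne_zero with hεu
  have hεuq : εu ^ q = 1 := Units.ext (by
    rw [Units.val_pow_eq_pow_val, Units.val_one]
    exact C.eps_pow)
  have hval : ∀ c : ZMod q, ((kfpE εu c : Ωˣ) : Ω) = kfpE C.ε c := fun c => by
    unfold kfpE
    rw [Units.val_pow_eq_pow_val]
    rfl
  obtain ⟨b, hb⟩ := hH (fun h => kfpE εu (C.μ₀ (x * f (h : G)))) (by
      intro g h
      apply Units.ext
      show ((kfpE εu (C.μ₀ (x * f ((g : G) * (h : G)))) : Ωˣ) : Ω) =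
        (g : G) ((kfpE εu (C.μ₀ (x * f (h : G))) : Ωˣ) : Ω) *
          ((kfpE εu (C.μ₀ (x * f (g : G))) : Ωˣ) : Ω)
      rw [hval, hval, hval, C.map_kfpE, ← kfpE_add C.eps_pow]
      congr 1
      rw [hf, C.ψ_of_fix g.2, mul_add, map_add]
      have : x * ((algebraMap (ZMod q) k) (C.ω' (g : G)) * f (h : G)) =
          C.ω' (g : G) • (x * f (h : G)) := by
        rw [Algebra.smul_def]
        ring
      rw [this, map_smul, smul_eq_mul]
      ring)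
    (by
      intro h v hv
      show kfpE εu (C.μ₀ (x * f ((h : G) * (v : G)))) = kfpE εu (C.μ₀ (x * f (h : G)))
      rw [hVf (h : G) (v : G) hv.1])
  refine ⟨(b : Ω), b.ne_zero, fun g hg => ?_⟩
  have hg' : g ∈ C.stab := hg
  have h1 : (⟨g, hg'⟩ : C.stab) • b / b = kfpE εu (C.μ₀ (x * f g)) := hb ⟨g, hg'⟩
  have h2 : (⟨g, hg'⟩ : C.stab) • b = kfpE εu (C.μ₀ (x * f g)) * b := by
    rw [← h1, div_mul_cancel]
  have h3 := congrArg Units.val h2
  rw [Units.val_mul, hval] at h3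
  exact h3

end W4Ctx

end Fermat.Agent.S56.W4A
end MergeWrap_S56_W4_CountA_Kum

section MergeWrap_S56_W4_CountA_Count -- from S56/W4/CountA/Count.lean

/-!
# S56 / W4 / CountA / Count : the count of the cocycles of `k(ω η)`, `η ≠ 1` unramified

Generic form (`W4Ctx.count`): the smooth cocycles of `k(ψ)` inject into a set with at most
`|k|²` elements.
-/

set_option autoImplicit false

open Polynomial IntermediateField
open scoped NNReal

namespace Fermat.Agent.S56.W4A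

open Fermat.Agent.F4.Loc Fermat.Agent.S56.SO

variable {q : ℕ} [Fact q.Prime]

local notation "Ω" => PadicAlgCl q
local notation "G" => (PadicAlgCl q ≃ₐ[ℚ_[q]] PadicAlgCl q)

/-! ### approximate roots of `∑ a_j Y ^ (q ^ j)` -/

theorem w4a_one_le_norm_prod (y : Ω) (M : Multiset Ω) (h : ∀ r ∈ M, 1 ≤ ‖y - r‖) :
    1 ≤ ‖(M.map (y - ·)).prod‖ := by
  induction M using Multiset.induction_on with
  | empty => simp
  | cons a M ih =>
    rw [Multiset.map_cons, Multiset.prod_cons, norm_mul]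
    exact one_le_mul_of_one_le_of_one_le (h a (Multiset.mem_cons_self a M))
      (ih fun r hr => h r (Multiset.mem_cons_of_mem hr))

theorem w4a_exists_roots (s : ℕ) (a : ℕ → Ω) (has : ‖a s‖ = 1) :
    ∃ R : Finset Ω, R.card ≤ q ^ s ∧
      ∀ y : Ω, ‖∑ j ∈ Finset.range (s + 1), a j * y ^ (q ^ j)‖ < 1 → ∃ r ∈ R, ‖y - r‖ < 1 := by
  classical
  have hq : q.Prime := Fact.out
  set P : Polynomial (PadicAlgCl q) := ∑ j ∈ Finset.range (s + 1), C (a j) * X ^ (q ^ j) with hP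
  have hdeg : P.natDegree ≤ q ^ s := by
    refine natDegree_sum_le_of_forall_le _ _ fun j hj => ?_
    refine (natDegree_C_mul_X_pow_le _ _).trans ?_
    exact Nat.pow_le_pow_right hq.pos (Nat.lt_succ_iff.1 (Finset.mem_range.1 hj))
  have hcoeff : P.coeff (q ^ s) = a s := by
    rw [hP, finsetSum_coeff, Finset.sum_eq_single s]
    · rw [coeff_C_mul_X_pow, if_pos rfl]
    · intro j _ hjs
      rw [coeff_C_mul_X_pow, if_neg]
      intro h
      exact hjs (Nat.pow_right_injective hq.two_le h).symm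
    · intro h
      exact absurd (Finset.mem_range.2 (Nat.lt_succ_self s)) h
  have has0 : a s ≠ 0 := fun h => by
    rw [h, norm_zero] at has
    exact zero_ne_one has
  have hnat : P.natDegree = q ^ s :=
    le_antisymm hdeg (le_natDegree_of_ne_zero (by rw [hcoeff]; exact has0))
  have hlead : P.leadingCoeff = a s := by rw [leadingCoeff, hnat, hcoeff]
  have hsplit : P.Splits := IsAlgClosed.splits P
  refine ⟨P.roots.toFinset, ?_, fun y hy => ?_⟩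
  · exact (Multiset.toFinset_card_le _).trans ((card_roots' P).trans hdeg)
  · have hev : P.eval y = ∑ j ∈ Finset.range (s + 1), a j * y ^ (q ^ j) := by
      rw [hP, eval_finsetSum]
      refine Finset.sum_congr rfl fun j _ => ?_
      rw [eval_mul, eval_C, eval_pow, eval_X]
    rw [← hev, hsplit.eval_eq_prod_roots, norm_mul, hlead, has, one_mul] at hy
    by_contra hcon
    have h1 : ∀ r ∈ P.roots, 1 ≤ ‖y - r‖ := by
      intro r hr
      by_contra h2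
      exact hcon ⟨r, Multiset.mem_toFinset.2 hr, not_le.1 h2⟩
    exact absurd hy (not_lt.2 (w4a_one_le_norm_prod y _ h1))

/-! ### propagation of coboundaries -/

namespace W4Ctx

variable {k : Type} [Field k] [Algebra (ZMod q) k] (C : W4Ctx q k)

/-- the `x` for which `μ₀ (x g₀)` is a coboundary on the stabiliser of `ζ` -/
def cobSub (g₀ : G → k) : Submodule (ZMod q) k where
  carrier := {x | ∃ t : ZMod q, ∀ h : G, h C.ζ = C.ζ → C.μ₀ (x * g₀ h) = (C.ω' h - 1) * t}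
  add_mem' := by
    rintro x y ⟨t, ht⟩ ⟨t', ht'⟩
    refine ⟨t + t', fun h hh => ?_⟩
    rw [add_mul, map_add, ht h hh, ht' h hh]
    ring
  zero_mem' := ⟨0, fun h _ => by rw [zero_mul, map_zero, mul_zero]⟩
  smul_mem' := by
    rintro c x ⟨t, ht⟩
    refine ⟨c * t, fun h hh => ?_⟩
    rw [smul_mul_assoc, map_smul, ht h hh, smul_eq_mul]
    ring

variable {C}

theorem mem_cobSub {g₀ : G → k} {x : k} : x ∈ C.cobSub g₀ ↔
    ∃ t : ZMod q, ∀ h : G, h C.ζ = C.ζ → C.μ₀ (x * g₀ h) = (C.ω' h - 1) * t := Iff.rfl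

theorem cobSub_mul_L {g₀ : G → k} (hg : C.IsCoc g₀) {x : k} (hx : x ∈ C.cobSub g₀) :
    x * C.L ∈ C.cobSub g₀ := by
  obtain ⟨t, ht⟩ := hx
  refine ⟨t + C.μ₀ (x * g₀ C.φ⁻¹), fun h hh => ?_⟩
  have hh' : (C.φ⁻¹ * h * C.φ) C.ζ = C.ζ := C.toW4Data.conj_zeta C.φ h hh
  have h1 := ht _ hh'
  rw [hg.conj C.φ h, C.ψ_of_fix hh] at h1
  have h2 : C.ω' (C.φ⁻¹ * h * C.φ) = C.ω' h := by
    rw [C.ω'_mul, C.ω'_mul]
    have h4 := C.ω'_inv_mul C.φ
    linear_combination (C.ω' h) * h4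
  rw [h2] at h1
  have h3 : x * (C.ψ C.φ⁻¹ * g₀ h + (1 - (algebraMap (ZMod q) k) (C.ω' h)) * g₀ C.φ⁻¹) =
      x * C.L * g₀ h + (1 - C.ω' h) • (x * g₀ C.φ⁻¹) := by
    rw [Algebra.smul_def, map_sub, map_one]
    show _ = x * C.ψ C.φ⁻¹ * g₀ h + _
    ring
  rw [h3, map_add, map_smul, smul_eq_mul] at h1
  linear_combination h1

theorem cobSub_mul_aeval {g₀ : G → k} (hg : C.IsCoc g₀) (P : (ZMod q)[X]) :
    ∀ x ∈ C.cobSub g₀, x * aeval C.L P ∈ C.cobSub g₀ := by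
  have hpow : ∀ (n : ℕ) (x : k), x ∈ C.cobSub g₀ → x * C.L ^ n ∈ C.cobSub g₀ := by
    intro n
    induction n with
    | zero =>
      intro x hx
      rw [pow_zero, mul_one]
      exact hx
    | succ n ih =>
      intro x hx
      rw [pow_succ, ← mul_assoc]
      exact cobSub_mul_L hg (ih x hx)
  induction P using Polynomial.induction_on' with
  | add P Q hP hQ =>
    intro x hx
    rw [map_add, mul_add]
    exact (C.cobSub g₀).add_mem (hP x hx) (hQ x hx)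
  | monomial n a =>
    intro x hx
    have e : x * aeval C.L (monomial n a) = a • (x * C.L ^ n) := by
      rw [aeval_monomial, Algebra.smul_def]
      ring
    rw [e]
    exact (C.cobSub g₀).smul_mem a (hpow n x hx)

/-- a cocycle vanishing on the stabiliser of `ζ` vanishes -/
theorem IsCoc.eq_zero_of_stab {g₀ : G → k} (hg : C.IsCoc g₀) (h₀ : G) (hh₀ : h₀ C.ζ = C.ζ)
    (hω₀ : C.ω' h₀ ≠ 1) (hvan : ∀ h : G, h C.ζ = C.ζ → g₀ h = 0) (σ : G) : g₀ σ = 0 := by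
  have h1 : (σ * h₀ * σ⁻¹) C.ζ = C.ζ := by
    have := C.toW4Data.conj_zeta σ⁻¹ h₀ hh₀
    rwa [inv_inv] at this
  have e1 : g₀ (σ * h₀) = g₀ σ := by rw [hg σ h₀, hvan h₀ hh₀, mul_zero, add_zero]
  have e2 : g₀ (σ * h₀) = C.ψ (σ * h₀ * σ⁻¹) * g₀ σ := by
    have : σ * h₀ = (σ * h₀ * σ⁻¹) * σ := by group
    conv_lhs => rw [this]
    rw [hg, hvan _ h1, zero_add]
  have e3 : C.ψ (σ * h₀ * σ⁻¹) = algebraMap (ZMod q) k (C.ω' h₀) := by
    rw [C.ψ_of_fix h1]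
    congr 1
    rw [C.ω'_mul, C.ω'_mul]
    have h4 := C.ω'_inv_mul σ
    linear_combination (C.ω' h₀) * h4
  rw [e1, e3] at e2
  have e4 : (algebraMap (ZMod q) k (C.ω' h₀) - 1) * g₀ σ = 0 := by
    rw [sub_mul, one_mul, ← e2, sub_self]
  rcases mul_eq_zero.1 e4 with h5 | h5
  · exfalso
    apply hω₀
    have h6 : algebraMap (ZMod q) k (C.ω' h₀) = algebraMap (ZMod q) k 1 := by
      rw [(algebraMap (ZMod q) k).map_one]
      exact sub_eq_zero.1 h5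
    exact (algebraMap (ZMod q) k).injective h6
  · exact h5

/-- **The count (generic form).**  The smooth cocycles of `k(ψ)` inject into a set with at most
`|k|²` elements. -/
theorem count [Finite k] (C : W4Ctx q k) (hq2 : q ≠ 2)
    (hL : C.L ≠ algebraMap (ZMod q) k C.w) (hμ : C.μ₀ ≠ 0) (h₀ : G) (hh₀ : h₀ C.ζ = C.ζ)
    (hω₀ : C.ω' h₀ ≠ 1) :
    ∃ (T : Type) (_ : Finite T) (Φ : {f : G → k // SmoothC1 q f ∧ C.IsCoc f} → T),
      Nat.card T ≤ Nat.card k ^ 2 ∧ Function.Injective Φ := by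
  classical
  have hq : q.Prime := Fact.out
  have hint : IsIntegral (ZMod q) C.L := Algebra.IsIntegral.isIntegral _
  -- the field `F₀ = 𝔽_q(L)`
  have hF₀card : Nat.card (ZMod q)⟮C.L⟯ = q ^ C.s := by
    rw [Module.natCard_eq_pow_finrank (K := ZMod q) (V := (ZMod q)⟮C.L⟯), Nat.card_zmod,
      IntermediateField.adjoin.finrank hint]
    rfl
  set r := Module.finrank (ZMod q)⟮C.L⟯ k with hr
  have hkcard : Nat.card k = (q ^ C.s) ^ r := by
    rw [Module.natCard_eq_pow_finrank (K := (ZMod q)⟮C.L⟯) (V := k), hF₀card]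
  let b : Module.Basis (Fin r) (ZMod q)⟮C.L⟯ k := Module.finBasis (ZMod q)⟮C.L⟯ k
  obtain ⟨R, hRcard, hR⟩ := w4a_exists_roots (q := q) C.s (fun j => ((C.e j : ℕ) : Ω)) e_top_norm
  -- the invariants
  have key : ∀ (f : {f : G → k // SmoothC1 q f ∧ C.IsCoc f}) (i : Fin r),
      ∃ ρ : ↥R, ∃ B : Ω, C.IsKum f.1 (b i) B ∧ ‖B‖ = 1 ∧
        ‖C.toW4Data.θ (B ^ q) - (ρ : Ω)‖ < 1 := by
    intro f i
    obtain ⟨B₀, hB₀⟩ := exists_isKum f.2.2 f.2.1 (b i)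
    obtain ⟨B, hB, hBn⟩ := hB₀.exists_unit hL f.2.2
    obtain ⟨ρ, hρ, hρ'⟩ := hR _ (hB.theta_rel f.2.2 hBn)
    exact ⟨⟨ρ, hρ⟩, B, hB, hBn, hρ'⟩
  choose inv Bf hBf hBn hBρ using key
  refine ⟨(Fin r → ↥R) × k, inferInstance, fun f => (inv f, f.1 h₀), ?_, ?_⟩
  · rw [Nat.card_prod, Nat.card_fun, Nat.card_fin, Nat.card_eq_fintype_card (α := ↥R),
      Fintype.card_coe]
    calc R.card ^ r * Nat.card k ≤ (q ^ C.s) ^ r * Nat.card k :=
          Nat.mul_le_mul_right _ (Nat.pow_le_pow_left hRcard r)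
      _ = Nat.card k ^ 2 := by rw [← hkcard]; ring
  · intro f f' hff
    have h1 : inv f = inv f' := congrArg Prod.fst hff
    have h2 : f.1 h₀ = f'.1 h₀ := congrArg Prod.snd hff
    set g₀ : G → k := fun γ => f.1 γ - f'.1 γ with hg₀
    have hg : C.IsCoc g₀ := f.2.2.sub f'.2.2
    -- the basis vectors lie in `cobSub`
    have hb : ∀ i, (b i : k) ∈ C.cobSub g₀ := by
      intro i
      have hU := (hBf f i).pow_q_U (hBn f i)
      have hU' := (hBf f' i).pow_q_U (hBn f' i)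
      have hc : W4Cg (C.toW4Data.θ (Bf f i ^ q)) (C.toW4Data.θ (Bf f' i ^ q)) := by
        have a1 : W4Cg (C.toW4Data.θ (Bf f i ^ q)) (inv f i : Ω) := hBρ f i
        have a2 : W4Cg (C.toW4Data.θ (Bf f' i ^ q)) (inv f' i : Ω) := hBρ f' i
        rw [← h1] at a2
        exact a1.trans a2.symm
      have huU : C.toW4Data.U (Bf f i ^ q / Bf f' i ^ q) := hU.div hU'
      have hθu : W4Cg (C.toW4Data.θ (Bf f i ^ q / Bf f' i ^ q)) 0 := by
        have e := huU.θ_mul' hU'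
        rw [div_mul_cancel₀ _ hU'.ne_zero] at e
        have e2 := (e.symm.trans hc).sub (W4Cg.refl (C.toW4Data.θ (Bf f' i ^ q)))
        rw [add_sub_cancel_right, sub_self] at e2
        exact e2
      obtain ⟨z, hzU, hzq⟩ := huU.exists_pow_eq hq2 hθu
      have hzq' : Bf f i ^ q = Bf f' i ^ q * z ^ q := by
        rw [hzq, mul_div_cancel₀ _ hU'.ne_zero]
      obtain ⟨t, ht⟩ := (hBf f i).compare (hBf f' i) hzU.1 hzq'
      exact ⟨t, ht⟩
    -- `cobSub = ⊤`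
    have htop : ∀ x : k, x ∈ C.cobSub g₀ := by
      intro x
      rw [← b.sum_repr x]
      refine Submodule.sum_mem _ fun i _ => ?_
      have hy : ((b.repr x i : (ZMod q)⟮C.L⟯) : k) ∈ Algebra.adjoin (ZMod q) {C.L} := by
        rw [← IntermediateField.adjoin_simple_toSubalgebra_of_isAlgebraic hint.isAlgebraic]
        exact (b.repr x i).2
      rw [Algebra.adjoin_singleton_eq_range_aeval] at hy
      obtain ⟨P, hP⟩ := hy
      have e : (b.repr x i) • (b i) = b i * aeval C.L P := by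
        have hP' : aeval C.L P = ((b.repr x i : (ZMod q)⟮C.L⟯) : k) := hP
        rw [hP', Algebra.smul_def, mul_comm]
        rfl
      rw [e]
      exact cobSub_mul_aeval hg P _ (hb i)
    -- `g₀` vanishes on the stabiliser
    have hg0 : g₀ h₀ = 0 := sub_eq_zero.2 h2
    have hvan : ∀ h : G, h C.ζ = C.ζ → g₀ h = 0 := by
      intro h hh
      by_contra hne
      apply hμ
      apply LinearMap.ext
      intro y
      obtain ⟨t, ht⟩ := htop (y * (g₀ h)⁻¹)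
      have ht0 : t = 0 := by
        have h3 := ht h₀ hh₀
        rw [hg0, mul_zero, map_zero] at h3
        rcases mul_eq_zero.1 h3.symm with h5 | h5
        · exact absurd (sub_eq_zero.1 h5) hω₀
        · exact h5
      have h4 := ht h hh
      rw [ht0, mul_zero, mul_assoc, inv_mul_cancel₀ hne, mul_one] at h4
      rw [h4]
      rfl
    apply Subtype.ext
    funext σ
    exact sub_eq_zero.1 (hg.eq_zero_of_stab h₀ hh₀ hω₀ hvan σ)

end W4Ctx

end Fermat.Agent.S56.W4A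
end MergeWrap_S56_W4_CountA_Count

section MergeWrap_S56_W4_CountA_Arith -- from S56/W4/CountA/Arith.lean

/-!
# S56 / W4 / CountA / Arith : Frobenius and inertia congruences on the integers of `Ω`

Sub-seat ARITH of wall W4-A (owner helper80; statements by helper9).

* `w4a_mem_nonunits_iff` : `y ∈ (padicPlace q).nonunits ↔ ‖ι y‖ < 1`;
* `w4a_frob_congr` (AR1) : a Frobenius lift is congruent to `x ↦ x ^ p` on the integers of `Ω`;
* `w4a_inertia_congr` (AR2) : inertia acts trivially modulo the maximal ideal of `Ω`;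
* `w4a_exists_inertia_cyc` (AR3) : the mod `p` cyclotomic character is nontrivial on inertia.
-/

set_option autoImplicit false

open Fermat.Agent.S56.SO ExtCitation Fermat.Agent.F4 Fermat.Agent.F4.Loc

namespace Fermat.Agent.S56.W4A

/-- The nonunits of `padicPlace q` are the elements of norm `< 1`. -/
theorem w4a_mem_nonunits_iff (q : ℕ) [Fact q.Prime] (y : AlgebraicClosure ℚ) :
    y ∈ (padicPlace q).nonunits ↔ ‖padicEmbedding q y‖ < 1 := by
  rw [ValuationSubring.mem_nonunits_iff_or]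
  constructor
  · rintro (rfl | h)
    · rw [map_zero, norm_zero]
      exact zero_lt_one
    · by_contra hcon
      apply h
      rw [mem_padicPlace_iff, ← NNReal.coe_le_coe, coe_nnnorm, NNReal.coe_one, map_inv₀, norm_inv]
      exact inv_le_one_of_one_le₀ (not_lt.1 hcon)
  · intro h
    by_cases hy : y = 0
    · exact Or.inl hy
    · right
      intro hmem
      rw [mem_padicPlace_iff, ← NNReal.coe_le_coe, coe_nnnorm, NNReal.coe_one, map_inv₀,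
        norm_inv] at hmem
      have h0 : 0 < ‖padicEmbedding q y‖ := by
        rw [norm_pos_iff]
        exact fun h0 => hy ((map_eq_zero_iff _ (padicEmbedding q).toRingHom.injective).1 h0)
      have h1 : 1 ≤ ‖padicEmbedding q y‖ := (inv_le_one₀ h0).1 hmem
      exact absurd h (not_lt.2 h1)

/-- **AR1**: a Frobenius lift is congruent to `x ↦ x ^ p` on the integers of `Ω`. -/
theorem w4a_frob_congr (p : ℕ) [Fact p.Prime] (φ : Gp p)
    (hφ : (primeLocalPlace (pPrime p)).IsFrobeniusAt (locp p φ) p)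
    (x : PadicAlgCl ((pPrime p : Nat.Primes) : ℕ)) (hx : ‖x‖ ≤ 1) : ‖φ • x - x ^ p‖ < 1 := by
  refine w4a_congr_of_dense p (show PadicAlgCl p ≃ₐ[ℚ_[p]] PadicAlgCl p from φ) p ?_ x hx
  intro y hy
  have h1 : locp p φ y - y ^ p ∈ (padicPlace p).nonunits :=
    Fermat.Agent.TameInertia.frob_sub_pow_mem_nonunits (padicPlace p) (locp p φ) p hφ hy
  rw [w4a_mem_nonunits_iff, map_sub, map_pow] at h1
  have h2 : padicEmbedding p (locp p φ y) =
      (show PadicAlgCl p ≃ₐ[ℚ_[p]] PadicAlgCl p from φ) (padicEmbedding p y) :=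
    padicEmbedding_localGaloisToGlobal p _ y
  rw [h2] at h1
  exact h1

/-- **AR2**: inertia acts trivially modulo the maximal ideal of `Ω`. -/
theorem w4a_inertia_congr (p : ℕ) [Fact p.Prime] (τ : Gp p) (hτ : τ ∈ locInertia (pPrime p))
    (x : PadicAlgCl ((pPrime p : Nat.Primes) : ℕ)) (hx : ‖x‖ ≤ 1) : ‖τ • x - x‖ < 1 := by
  have key := w4a_congr_of_dense p (show PadicAlgCl p ≃ₐ[ℚ_[p]] PadicAlgCl p from τ) 1 ?_ x hx
  · rw [pow_one] at key
    exact key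
  intro y hy
  have hin : locp p τ ∈ (padicPlace p).inertiaSubgroupIn ℚ := hτ
  have h1 : locp p τ y - y ∈ (padicPlace p).nonunits :=
    ((Fermat.Agent.KFin.kf_mem_inertiaSubgroupIn_iff (padicPlace p) (locp p τ)).1 hin).2 y hy
  rw [w4a_mem_nonunits_iff, map_sub] at h1
  have h2 : padicEmbedding p (locp p τ y) =
      (show PadicAlgCl p ≃ₐ[ℚ_[p]] PadicAlgCl p from τ) (padicEmbedding p y) :=
    padicEmbedding_localGaloisToGlobal p _ y
  rw [h2] at h1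
  rw [pow_one]
  exact h1

/-- **AR3**: the mod `p` cyclotomic character is nontrivial on inertia (`p` odd). -/
theorem w4a_exists_inertia_cyc (p : ℕ) [Fact p.Prime] (hp2 : p ≠ 2) :
    ∃ h₀ ∈ locInertia (pPrime p), cycLoc p h₀ ≠ 1 := by
  have hp : p.Prime := Fact.out
  have : NeZero p := ⟨hp.ne_zero⟩
  obtain ⟨σ₀, hσ₀, hinv⟩ := Fermat.Agent.S59.SOArith.exists_inertia_inv_on_roots p (padicPlace p)
    (cycloc_padicPlace_liesOver p)
  have hσ₀' : σ₀ ∈ (primeLocalPlace (pPrime p)).inertiaSubgroupIn ℚ := hσ₀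
  obtain ⟨τ, hτ, hloc⟩ := exists_of_mem_inertia (pPrime p) hσ₀'
  refine ⟨τ, hτ, fun h1 => ?_⟩
  have hloc' : locp p τ = σ₀ := hloc
  obtain ⟨ζ, hζ⟩ := HasEnoughRootsOfUnity.exists_primitiveRoot (AlgebraicClosure ℚ) p
  have hfix : σ₀ ζ = ζ := by
    have h2 := cycLoc_spec p τ ζ hζ.pow_eq_one
    rw [h1, ZMod.val_one'', pow_one, hloc'] at h2
    · exact h2
    · exact hp.ne_one
  rw [hinv ζ hζ.pow_eq_one] at hfix
  have hζ0 : ζ ≠ 0 := hζ.ne_zero hp.ne_zero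
  have h2 : ζ ^ 2 = 1 := by
    rw [pow_two]
    nth_rewrite 1 [← hfix]
    exact inv_mul_cancel₀ hζ0
  have hdvd : p ∣ 2 := hζ.dvd_of_pow_eq_one 2 h2
  exact hp2 ((Nat.prime_dvd_prime_iff_eq hp Nat.prime_two).mp hdvd)

end Fermat.Agent.S56.W4A
end MergeWrap_S56_W4_CountA_Arith

section MergeWrap_S56_W4_CountA_Main -- from S56/W4/CountA/Main.lean

/-!
# S56 / W4 / CountA / Main : `twZ_card_le_unram`

For `η ≠ 1` an unramified character of `Gal(ℚ̄_p/ℚ_p)` with values in `kˣ`, there are at most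
`|k|²` level-constant cocycles of `k(ω η)`.
-/

set_option autoImplicit false

open Polynomial IntermediateField
open scoped NNReal

namespace Fermat.Agent.S56.W4A

open Fermat.Agent.S56.SO ExtCitation Fermat.Agent.F4 Fermat.Agent.F4.Loc

section Generic

variable {q : ℕ} [Fact q.Prime]

/-- `φ ^ n` fixes `ζ` only if `d ∣ n` -/
theorem W4Data.dvd_of_phi_pow_zeta (D : W4Data q) (n : ℕ) (h : (D.φ ^ n) D.ζ = D.ζ) :
    D.d ∣ n := by
  have hq : q.Prime := Fact.out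
  rw [D.phi_pow_zeta] at h
  have h1 : D.ζ ^ (q ^ n - 1) = 1 := by
    have hpos : 0 < q ^ n := pow_pos hq.pos n
    have e : q ^ n = (q ^ n - 1) + 1 := by omega
    rw [e, pow_succ] at h
    exact mul_right_cancel₀ (D.hζ'.ne_zero D.m_pos.ne') (by rw [h, one_mul])
  have h2 : D.m ∣ q ^ n - 1 := D.hζ'.dvd_of_pow_eq_one _ h1
  have h3 : q ^ n ≡ 1 [MOD D.m] :=
    ((Nat.modEq_iff_dvd' (Nat.one_le_pow _ _ hq.pos)).2 h2).symm
  have h4 : q ^ D.d ≡ 1 [MOD D.m] := by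
    rw [← D.m_add_one]
    exact Nat.add_modEq_left
  have h5 : q ^ (n % D.d) ≡ 1 [MOD D.m] := by
    have e : n = D.d * (n / D.d) + n % D.d := (Nat.div_add_mod n D.d).symm
    rw [e, pow_add, pow_mul] at h3
    have h6 : (q ^ D.d) ^ (n / D.d) ≡ 1 [MOD D.m] := by simpa using h4.pow (n / D.d)
    have h7 := h6.mul_right (q ^ (n % D.d))
    rw [one_mul] at h7
    exact h7.symm.trans h3
  have hj : n % D.d < D.d := Nat.mod_lt _ D.hd
  have h8 : q ^ (n % D.d) < q ^ D.d := Nat.pow_lt_pow_right hq.one_lt hj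
  have h9 : D.m ∣ q ^ (n % D.d) - 1 :=
    (Nat.modEq_iff_dvd' (Nat.one_le_pow _ _ hq.pos)).1 h5.symm
  have h8' : q ^ (n % D.d) < D.m + 1 := by
    rw [D.m_add_one]
    exact h8
  have hpos' : 0 < q ^ (n % D.d) := pow_pos hq.pos _
  have h10 : q ^ (n % D.d) - 1 = 0 :=
    Nat.eq_zero_of_dvd_of_lt h9
      (Nat.lt_of_lt_of_le (Nat.sub_lt hpos' one_pos) (Nat.lt_succ_iff.1 h8'))
  have h11 : q ^ (n % D.d) = 1 := by
    generalize q ^ (n % D.d) = A at hpos' h10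
    omega
  have h12 : n % D.d = 0 := by
    by_contra hne
    have := Nat.one_lt_pow hne hq.one_lt
    rw [h11] at this
    exact lt_irrefl _ this
  exact Nat.dvd_of_mod_eq_zero h12

/-- an automorphism acting trivially modulo the maximal ideal fixes `ζ` -/
theorem W4Data.fix_of_congr (D : W4Data q) (τ : PadicAlgCl q ≃ₐ[ℚ_[q]] PadicAlgCl q)
    (h : ∀ x : PadicAlgCl q, ‖x‖ ≤ 1 → ‖τ x - x‖ < 1) : τ D.ζ = D.ζ := by
  refine w4a_root_eq_of_close D.m_coprime D.hζ' ?_ D.zeta_pow (h D.ζ D.norm_zeta.le)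
  rw [← map_pow, D.zeta_pow, map_one]

end Generic

section Wrapper

variable {k : Type} [Field k] [Finite k]

/-- **W4-A.**  For a nontrivial unramified character `η`, there are at most `|k|²` level-constant
cocycles of `k(ω η)`. -/
theorem twZ_card_le_unram (p : ℕ) [Fact p.Prime] (hp2 : p ≠ 2)
    (hpk : (p : k) = 0) (ω : Gp p → k) (hω : IsCycLoc p ω) (η : Gp p →* kˣ)
    (hlev : ∃ U ∈ levelsAll.sets, U.comap (locp p) ≤ η.ker)
    (hunr : ∀ τ ∈ locInertia (pPrime p), η τ = 1) (hne : ∃ γ, η γ ≠ 1) :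
    Finite (twZ p (fun γ => ω γ * (η γ : k))) ∧
      Nat.card (twZ p (fun γ => ω γ * (η γ : k))) ≤ Nat.card k ^ 2 := by
  classical
  have hp : p.Prime := Fact.out
  have hchar : CharP k p := sok3_charP p hpk
  let alg : Algebra (ZMod p) k := ZMod.algebra k p
  -- Frobenius
  obtain ⟨φ, hφF, hgen⟩ := Fermat.Agent.S56.TWGen.exists_frob_gen (pPrime p)
  obtain ⟨U₀, hU₀, hU₀η⟩ := hlev
  have hηpow : ∀ g : Gp p, ∃ n : ℕ, η g = η φ ^ n := by
    intro g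
    obtain ⟨n, τ, hτ, hmem⟩ := hgen U₀ hU₀ g
    have h1 : g⁻¹ * (φ ^ n * τ) ∈ η.ker := hU₀η hmem
    rw [MonoidHom.mem_ker, map_mul, map_inv, map_mul, map_pow, hunr τ hτ, mul_one] at h1
    exact ⟨n, inv_mul_eq_one.1 h1⟩
  have hlam : η φ ≠ 1 := by
    intro h1
    obtain ⟨γ, hγ⟩ := hne
    obtain ⟨n, hn⟩ := hηpow γ
    rw [h1, one_pow] at hn
    exact hγ hn
  have hdpos : 0 < orderOf (η φ) := orderOf_pos _
  -- the root of unity `ζ`
  have hmpos : 0 < ((pPrime p : Nat.Primes) : ℕ) ^ orderOf (η φ) - 1 := by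
    have h1 : ((pPrime p : Nat.Primes) : ℕ) ^ 1 ≤ ((pPrime p : Nat.Primes) : ℕ) ^ orderOf (η φ) :=
      Nat.pow_le_pow_right hp.pos hdpos
    have h2 : 2 ≤ ((pPrime p : Nat.Primes) : ℕ) := hp.two_le
    rw [pow_one] at h1
    omega
  have hmne : NeZero (((((pPrime p : Nat.Primes) : ℕ) ^ orderOf (η φ) - 1 : ℕ) : ℕ) :
      PadicAlgCl ((pPrime p : Nat.Primes) : ℕ)) := ⟨Nat.cast_ne_zero.2 hmpos.ne'⟩
  obtain ⟨ζ, hζ⟩ := HasEnoughRootsOfUnity.exists_primitiveRoot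
    (PadicAlgCl ((pPrime p : Nat.Primes) : ℕ)) (((pPrime p : Nat.Primes) : ℕ) ^ orderOf (η φ) - 1)
  let D : W4Data ((pPrime p : Nat.Primes) : ℕ) :=
    { d := orderOf (η φ)
      hd := hdpos
      ζ := ζ
      hζ := hζ
      φ := φ
      hφ := fun x hx => w4a_frob_congr p φ hφF x hx }
  -- inertia fixes `ζ`
  have hIζ : ∀ τ : Gp p, τ ∈ locInertia (pPrime p) → D.ζ = (show PadicAlgCl ((pPrime p : Nat.Primes) : ℕ)
      ≃ₐ[ℚ_[((pPrime p : Nat.Primes) : ℕ)]] PadicAlgCl ((pPrime p : Nat.Primes) : ℕ) from τ) D.ζ :=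
    fun τ hτ => (D.fix_of_congr τ (fun x hx => w4a_inertia_congr p τ hτ x hx)).symm
  -- the stabiliser of `ζ` is open, hence contains a level
  have hopen : IsOpenSub ((pPrime p : Nat.Primes) : ℕ) (MulAction.stabilizer (Gp p) ζ) := by
    refine ⟨{ζ}, fun γ => ?_⟩
    rw [MulAction.mem_stabilizer_iff]
    constructor
    · intro h x hx
      rw [Finset.mem_singleton] at hx
      rw [hx]
      exact h
    · intro h
      exact h ζ (Finset.mem_singleton_self _)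
  obtain ⟨V, hV, hVle⟩ := exists_locLevelsAll_le (pPrime p) hopen
  obtain ⟨W, hW, rfl⟩ := hV
  obtain ⟨U', hU', hU'le⟩ := levelsAll.directed U₀ hU₀ W hW
  have hηfix : ∀ h : Gp p, h • ζ = ζ → η h = 1 := by
    intro h hh
    obtain ⟨n, τ, hτ, hmem⟩ := hgen U' hU' h
    have hmem' := hU'le hmem
    have h1 : h⁻¹ * (φ ^ n * τ) ∈ η.ker := hU₀η hmem'.1
    have h2 : h⁻¹ * (φ ^ n * τ) ∈ MulAction.stabilizer (Gp p) ζ := hVle hmem'.2
    rw [MonoidHom.mem_ker, map_mul, map_inv, map_mul, map_pow, hunr τ hτ, mul_one] at h1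
    have h3 : η h = η φ ^ n := inv_mul_eq_one.1 h1
    rw [h3]
    rw [MulAction.mem_stabilizer_iff, mul_smul, mul_smul] at h2
    have h4 : τ • ζ = ζ := (hIζ τ hτ).symm
    rw [h4] at h2
    have h5 : φ ^ n • ζ = ζ := by
      have := congrArg (fun x => h • x) h2
      simp only [smul_inv_smul] at this
      rw [this, hh]
    have h6 : orderOf (η φ) ∣ n := D.dvd_of_phi_pow_zeta n h5
    exact orderOf_dvd_iff_pow_eq_one.1 h6
  -- the `p`-th root of unity and the cyclotomic character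
  obtain ⟨εu, hεprim, hεact⟩ := kfp_exists_zeta p
  let alg' : Algebra (ZMod ((pPrime p : Nat.Primes) : ℕ)) k := alg
  obtain ⟨μ₀, hμ₀⟩ : ∃ μ₀ : k →ₗ[ZMod ((pPrime p : Nat.Primes) : ℕ)]
      ZMod ((pPrime p : Nat.Primes) : ℕ), μ₀ ≠ 0 := by
    by_contra hcon
    push Not at hcon
    have h1 := (Module.forall_dual_apply_eq_zero_iff (ZMod ((pPrime p : Nat.Primes) : ℕ))
      (1 : k)).1 (fun f => by rw [hcon f]; rfl)
    exact one_ne_zero h1
  let C : W4Ctx ((pPrime p : Nat.Primes) : ℕ) k :=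
    { toW4Data := D
      ε := (εu : PadicAlgCl ((pPrime p : Nat.Primes) : ℕ))
      hε := IsPrimitiveRoot.coe_units_iff.2 hεprim
      ω := (cycloChar p).comp (locp p)
      hω := fun γ =>
        (primeLocal_smul_units (pPrime p) γ εu).symm.trans
          ((congrArg Units.val (hεact γ)).trans (Units.val_pow_eq_pow_val εu _))
      η := η
      hη := hηfix
      μ₀ := μ₀ }
  have hωC : ∀ γ : Gp p, C.ω' γ = cycLoc p γ := fun γ => rfl
  have hψC : ∀ γ : (PadicAlgCl ((pPrime p : Nat.Primes) : ℕ)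
      ≃ₐ[ℚ_[((pPrime p : Nat.Primes) : ℕ)]] PadicAlgCl ((pPrime p : Nat.Primes) : ℕ)),
      C.ψ γ = ω γ * (η γ : k) := by
    intro γ
    rw [sok3_omega_eq p ω hω γ]
    rfl
  have hL : C.L ≠ algebraMap (ZMod ((pPrime p : Nat.Primes) : ℕ)) k C.w := by
    intro h1
    have h2 : algebraMap (ZMod ((pPrime p : Nat.Primes) : ℕ)) k C.w * ((η φ⁻¹ : kˣ) : k)
        = algebraMap (ZMod ((pPrime p : Nat.Primes) : ℕ)) k C.w * 1 := by
      rw [mul_one]
      exact h1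
    have h3 : algebraMap (ZMod ((pPrime p : Nat.Primes) : ℕ)) k C.w ≠ 0 := by
      rw [Ne, map_eq_zero_iff _ (algebraMap (ZMod ((pPrime p : Nat.Primes) : ℕ)) k).injective]
      exact C.ω'_ne_zero _
    have h4 : ((η φ⁻¹ : kˣ) : k) = 1 := mul_left_cancel₀ h3 h2
    have h5 : η φ⁻¹ = 1 := Units.ext h4
    rw [map_inv, inv_eq_one] at h5
    exact hlam h5
  obtain ⟨h₀, hh₀I, hh₀c⟩ := w4a_exists_inertia_cyc p hp2
  have hh₀ : (show PadicAlgCl ((pPrime p : Nat.Primes) : ℕ)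
      ≃ₐ[ℚ_[((pPrime p : Nat.Primes) : ℕ)]] PadicAlgCl ((pPrime p : Nat.Primes) : ℕ) from h₀) C.ζ
      = C.ζ := (hIζ h₀ hh₀I).symm
  obtain ⟨T, hT, Φ, hcard, hinj⟩ := C.count hp2 hL hμ₀ h₀ hh₀ hh₀c
  -- the cocycles of the statement are cocycles of the context
  let Ψ : twZ p (fun γ => ω γ * (η γ : k)) →
      {f : (PadicAlgCl ((pPrime p : Nat.Primes) : ℕ)
        ≃ₐ[ℚ_[((pPrime p : Nat.Primes) : ℕ)]] PadicAlgCl ((pPrime p : Nat.Primes) : ℕ)) → k //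
        SmoothC1 ((pPrime p : Nat.Primes) : ℕ) f ∧ C.IsCoc f} := fun f =>
    ⟨f.1, by
      obtain ⟨⟨V, hV, hVf⟩, hcoc⟩ := f.2
      refine ⟨⟨V, (locLevelsAll (pPrime p)).normal V hV, isOpenSub_locLevelsAll (pPrime p) hV,
        hVf⟩, fun σ τ => ?_⟩
      rw [hψC]
      exact hcoc σ τ⟩
  have hΨ : Function.Injective (fun f => Φ (Ψ f)) := by
    intro f f' hff
    have h1 : Ψ f = Ψ f' := hinj hff
    have h2 : (Ψ f).1 = (Ψ f').1 := congrArg Subtype.val h1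
    exact Subtype.ext h2
  have hfin : Finite (twZ p (fun γ => ω γ * (η γ : k))) := Finite.of_injective _ hΨ
  exact ⟨hfin, (Nat.card_le_card_of_injective _ hΨ).trans hcard⟩

end Wrapper

end Fermat.Agent.S56.W4A
end MergeWrap_S56_W4_CountA_Main
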